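import Fermat.Agent.Lib.FFs.Ram
import Fermat.Agent.Lib.FunctionField.DWRR

/-!
# Function fields in characteristic zero: canonical divisors exist, and Riemann's theorem holds
with the genus of the prelude

* `hasCanonicalDivisor_of_isFF1`: every nonzero differential has a divisor.
* `genus_eq_riemann`: the prelude's genus is the genus in Riemann's theorem.
* `riemann_theorem_genus`: `ℓ(E) + g ≥ deg E + 1`, with equality for `deg E ≥ c`.
-/

set_option autoImplicit false
set_option linter.unusedSectionVars false
set_option linter.unusedVariables false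
set_option linter.style.haveILetI false
set_option linter.deprecated false

open AlgebraicCurve IntermediateField Polynomial Module KaehlerDifferential
open Fermat.Agent.Lib.FF

namespace Fermat.Agent.Lib.FFs

variable {K F : Type*} [Field K] [Field F] [Algebra K F] [IsAlgClosed K] [CharZero K]
variable {x : F}

/-- the divisor of `dx` has finite support -/
theorem finite_ordDifferential_dx (hx : IsFF1 K F x) :
    {v : Place K F | v.ordDifferential (D K F x) ≠ 0}.Finite := by
  have hxs := IsFF1s.of_isFF1 hx
  have hpf := placeFacts_of_isFF1 hx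
  have h1 := finite_ramified hxs
  have h2 := (pf0_of_isFF1s hxs).finite_poles x
  refine (h1.union h2).subset ?_
  intro v hv
  rw [Set.mem_setOf_eq] at hv
  by_cases hneg : v.ord x < 0
  · exact Or.inr hneg
  · left
    obtain ⟨a, ha⟩ := exists_ord_sub_pos hx.transcendental v (hpf.res v) (not_lt.mp hneg)
    rw [ordDifferential_dx_of_fibre hx v (hpf.res v) a ha] at hv
    rw [Set.mem_setOf_eq, ramIdx_of_pos ha]
    omega

/-- **canonical divisors exist** in characteristic zero -/
theorem hasCanonicalDivisor_of_isFF1 (hx : IsFF1 K F x) :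
    HasCanonicalDivisor (K := K) (F := F) where
  exists_divisor := by
    intro ω hω
    have hpf := placeFacts_of_isFF1 hx
    obtain ⟨c, hc⟩ := exists_eq_smul_D hx ω
    have hc0 : c ≠ 0 := by
      rintro rfl
      exact hω (by rw [hc, zero_smul])
    have hdx := D_ne_zero hx
    refine ⟨hpf.divOf c + Finsupp.ofSupportFinite
      (fun v : Place K F => v.ordDifferential (D K F x))
      (show (Function.support fun v : Place K F => v.ordDifferential (D K F x)).Finite from
        finite_ordDifferential_dx hx), fun v => ?_⟩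
    rw [Finsupp.add_apply, hpf.divOf_apply, hc, ordDifferential_smul' hx v c hc0 _ hdx]
    rfl

/-- the prelude's genus is the genus in Riemann's theorem -/
theorem genus_eq_riemann (hx : IsFF1 K F x) [HasCanonicalDivisor (K := K) (F := F)]
    {ι : Type*} [Fintype ι] [DecidableEq ι] {b : Basis ι K⟮x⟯ F} {d : ι → ℕ}
    (hred : IsReducedBasis K x b d) :
    (genus K F : ℤ) = ((∑ i, d i : ℕ) : ℤ) - (Module.finrank K⟮x⟯ F : ℤ) + 1 := by
  have hxs := IsFF1s.of_isFF1 hx
  have hpf := placeFacts_of_isFF1 hx
  haveI := hx.finite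
  have hdx := D_ne_zero hx
  set W : Divisor K F := canonicalDivisorOf hdx with hWdef
  have hW : ∀ v : Place K F, W v = v.ordDifferential (D K F x) :=
    fun v => canonicalDivisorOf_apply hdx v
  set n : ℤ := (Module.finrank K⟮x⟯ F : ℤ) with hn
  have hnrank : Module.finrank K⟮x⟯ F = Fintype.card ι := Module.finrank_eq_card_basis b
  have hcard : (∑ _i : ι, (1 : ℤ)) = n := by simp [hn, hnrank]
  have hnpos : 1 ≤ n := by
    have : 0 < Module.finrank K⟮x⟯ F := Module.finrank_pos
    rw [hn]
    exact_mod_cast this
  set M : ℕ := ∑ i, d i with hM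
  have hMcast : ((M : ℕ) : ℤ) = ∑ i, (d i : ℤ) := by rw [hM]; push_cast; rfl
  set P := hpf.poleDiv x with hP
  have hdegP : Divisor.degree P = n := hpf.degree_poleDiv hx.transcendental
  set c : ℤ := (M : ℤ) * n + M - n + 1 with hc
  set m : ℕ := (c - Divisor.degree W).toNat with hm
  have hmge : c - Divisor.degree W ≤ (m : ℤ) := Int.self_le_toNat _
  have hLC : (Module.finrank K (riemannRochSpace (W + ((m : ℤ) + 2) • P)) : ℤ)
      = n * (m + 1) + M := by
    rw [hP, rrSpace_canonical_add hx hpf hred (fun _ hy => localDual_of_isFF1 hy) W hW,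
      Fermat.Agent.Lib.FF.finrank_coordSpace _ _ hx,
      Fermat.Agent.Lib.FFs.sum_toNat_cast _ (fun i => by positivity)]
    have h1 : ∑ i : ι, ((m : ℤ) + d i + 1) = (m + 1) * ∑ _i : ι, (1 : ℤ) + ∑ i, (d i : ℤ) := by
      rw [Finset.mul_sum, ← Finset.sum_add_distrib]
      exact Finset.sum_congr rfl fun i _ => by ring
    rw [h1, hcard, hMcast]
    ring
  have hdeg : Divisor.degree (W + ((m : ℤ) + 2) • P) = Divisor.degree W + ((m : ℤ) + 2) * n := by
    rw [map_add, map_zsmul, hdegP, smul_eq_mul]
  have hEq := riemann_eq_aux hxs hred (W + ((m : ℤ) + 2) • P) (by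
    rw [hdeg]
    have h0 : (0 : ℤ) ≤ m := Int.natCast_nonneg _
    nlinarith)
  rw [hLC, hdeg] at hEq
  have hdW : Divisor.degree W = 2 * (M : ℤ) - 2 * n := by linarith
  have h2 := two_mul_finrank_rrSpace_dx hx W hW
  have h3 := finrank_rrSpace_canonical_eq_genus_uncond hx (D K F x) hdx W hW
  rw [← h3]
  linarith

/-- **Riemann's theorem in characteristic zero, with the genus of the prelude** -/
theorem riemann_theorem_genus (hx : IsFF1 K F x) [HasCanonicalDivisor (K := K) (F := F)] :
    ∃ c : ℤ,
      (∀ E : Divisor K F,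
        Divisor.degree E + 1 ≤ (Module.finrank K (riemannRochSpace E) : ℤ) + genus K F) ∧
      (∀ E : Divisor K F, c ≤ Divisor.degree E →
        (Module.finrank K (riemannRochSpace E) : ℤ) + genus K F = Divisor.degree E + 1) := by
  classical
  have hxs := IsFF1s.of_isFF1 hx
  obtain ⟨b, d, hred⟩ := exists_reducedBasis (pf0_of_isFF1s hxs) hx
  have hg := genus_eq_riemann hx hred
  refine ⟨((∑ i, d i : ℕ) : ℤ) * (Module.finrank K⟮x⟯ F : ℤ) + ((∑ i, d i : ℕ) : ℤ)
      - (Module.finrank K⟮x⟯ F : ℤ) + 1, fun E => ?_, fun E hE => ?_⟩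
  · have := riemann_aux (pf0_of_isFF1s hxs) hxs hred E
    linarith
  · have := riemann_eq_aux hxs hred E hE
    linarith

end Fermat.Agent.Lib.FFs
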