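import Fermat.Agent.Lib.FFs.Trace

/-!
# Function fields in any characteristic, part 11: functions without poles are constant

For a separating element `x`: an element which is regular at all places is integral over `K[x]`
and over `K[1/x]`, so the coefficients of its minimal polynomial over `K(x)` lie in
`K[x] ∩ K[1/x] = K`, and the element is algebraic over `K`.

Main results (`K` algebraically closed of any characteristic, `hx : IsFF1s K F x`):
* `pf0_of_isFF1s`, `placeFacts_of_isFF1s : PlaceFacts K F`
* `const_of_isFF1s`, `finrank_rrSpace_zero_of_isFF1s`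
* `riemann_inequality`
-/

set_option autoImplicit false
set_option linter.unusedSectionVars false
set_option linter.unusedVariables false
set_option linter.style.haveILetI false
set_option linter.deprecated false

open AlgebraicCurve WithZero IsDedekindDomain IntermediateField Polynomial
open scoped IntermediateField.algebraAdjoinAdjoin
open Fermat.Agent.Lib.FF

namespace Fermat.Agent.Lib.FFs

variable {K F : Type*} [Field K] [Field F] [Algebra K F]

theorem minpoly_map_congr {E₁ E₂ : IntermediateField K F} (h : E₁ = E₂) (f : F) :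
    (minpoly E₁ f).map (algebraMap E₁ F) = (minpoly E₂ f).map (algebraMap E₂ F) := by
  subst h
  rfl

variable [IsAlgClosed K] {x : F}

/-- the coefficients of the minimal polynomial over `K(y)` of an element integral over `K[y]`
are regular where `y` is -/
theorem ord_coeff_minpoly_nonneg {y : F} {f : F}
    (hf : IsIntegral (Algebra.adjoin K {y}) f) (j : ℕ) (Q : Place K F) (hQ : 0 ≤ Q.ord y) :
    0 ≤ Q.ord (((minpoly K⟮y⟯ f).map (algebraMap K⟮y⟯ F)).coeff j) := by
  haveI := isPrincipalIdealRing_adjoin K y
  rw [minpoly.isIntegrallyClosed_eq_field_fractions' K⟮y⟯ hf, Polynomial.map_map,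
    Polynomial.coeff_map]
  exact ord_nonneg_of_mem Q (adjoin_le_of_ord_nonneg K y Q hQ _)

/-- a polynomial in `x` which is regular at a pole of `x` is constant -/
theorem exists_const_of_mem_adjoin {c : F} (hx : Transcendental K x)
    (hc : c ∈ Algebra.adjoin K {x}) (Q : Place K F) (hQ : Q.ord x < 0) (hcQ : 0 ≤ Q.ord c) :
    ∃ a : K, algebraMap K F a = c := by
  rw [Algebra.adjoin_singleton_eq_range_aeval] at hc
  obtain ⟨p, rfl⟩ := hc
  by_cases hp : p = 0
  · exact ⟨0, by rw [hp, map_zero]; simp⟩
  have h1 : Q.ord (Polynomial.aeval x p) = (p.natDegree : ℤ) * Q.ord x :=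
    ord_aeval_of_neg hx Q hQ p hp
  have hcQ' : 0 ≤ Q.ord (Polynomial.aeval x p) := hcQ
  rw [h1] at hcQ'
  have h2 : p.natDegree = 0 := by
    by_contra hne
    have h3 : (1 : ℤ) ≤ p.natDegree := by
      have := Nat.pos_of_ne_zero hne
      exact_mod_cast this
    nlinarith
  have hpC : p = C (p.coeff 0) := Polynomial.eq_C_of_natDegree_eq_zero h2
  refine ⟨p.coeff 0, ?_⟩
  conv_rhs => rw [hpC]
  show _ = Polynomial.aeval x (C (p.coeff 0))
  rw [aeval_C]

/-- D2. a function without poles is constant -/
theorem const_of_isFF1s (hx : IsFF1s K F x) (f : F) (hf : ∀ v : Place K F, 0 ≤ v.ord f) :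
    ∃ c : K, f = algebraMap K F c := by
  have hpfs := pfs_of_isFF1s hx
  -- a pole of `x`
  obtain ⟨Q, hQ⟩ : ∃ Q : Place K F, Q.ord x < 0 := by
    have hsum := hpfs.sum_pol hx
    haveI := hx.finite
    have hn : 0 < Module.finrank K⟮x⟯ F := Module.finrank_pos
    by_contra hne
    push Not at hne
    have hempty : hpfs.pol hx = ∅ := by
      rw [Finset.eq_empty_iff_forall_notMem]
      intro v hv
      have := (hpfs.mem_pol hx).mp hv
      exact absurd (hne v) (not_le.mpr this)
    rw [hempty, Finset.sum_empty] at hsum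
    omega
  have hint : IsIntegral (Algebra.adjoin K {x}) f :=
    isIntegral_of_forall_ord_nonneg hx f fun v _ => hf v
  have hint' : IsIntegral (Algebra.adjoin K {x⁻¹}) f :=
    isIntegral_of_forall_ord_nonneg hx.inv f fun v _ => hf v
  set q : F[X] := (minpoly K⟮x⟯ f).map (algebraMap K⟮x⟯ F) with hq
  have hqeq : q = (minpoly K⟮x⁻¹⟯ f).map (algebraMap K⟮x⁻¹⟯ F) :=
    (minpoly_map_congr (adjoin_inv_eq x) f).symm
  haveI := isPrincipalIdealRing_adjoin K x
  have hfE : IsIntegral K⟮x⟯ f := hint.tower_top
  have hmonic : q.Monic := (minpoly.monic hfE).map _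
  have hroot : q.eval f = 0 := by
    rw [hq, Polynomial.eval_map, ← Polynomial.aeval_def, minpoly.aeval]
  -- the coefficients of `q` are constants
  have hcoeff : ∀ j : ℕ, q.coeff j ∈ (algebraMap K F).range := by
    intro j
    have h1 : q.coeff j ∈ Algebra.adjoin K {x} := by
      rw [hq, minpoly.isIntegrallyClosed_eq_field_fractions' K⟮x⟯ hint, Polynomial.map_map,
        Polynomial.coeff_map]
      exact ((minpoly (Algebra.adjoin K {x}) f).coeff j).2
    have h2 : 0 ≤ Q.ord (q.coeff j) := by
      rw [hqeq]
      exact ord_coeff_minpoly_nonneg hint' j Q (by rw [Q.ord_inv]; omega)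
    obtain ⟨a, ha⟩ := exists_const_of_mem_adjoin hx.transcendental h1 Q hQ h2
    exact ⟨a, ha⟩
  have hlift : q ∈ Polynomial.lifts (algebraMap K F) := by
    rw [Polynomial.lifts_iff_coeff_lifts]
    intro j
    exact hcoeff j
  obtain ⟨q₀, hq₀, -, hq₀m⟩ := Polynomial.lifts_and_natDegree_eq_and_monic hlift hmonic
  have halg : IsAlgebraic K f := by
    refine IsIntegral.isAlgebraic ⟨q₀, hq₀m, ?_⟩
    rw [← Polynomial.eval_map, hq₀]
    exact hroot
  obtain ⟨c, hc⟩ := exists_algebraMap_eq_of_isAlgebraic halg
  exact ⟨c, hc.symm⟩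

/-- the weak place facts of a function field of one variable (any characteristic) -/
theorem pf0_of_isFF1s (hx : IsFF1s K F x) : PF0 K F where
  res := fun v => algebraMap_residueField_surjective hx v
  finite_ord_ne_zero := finite_ord_ne_zero hx
  const := const_of_isFF1s hx

/-- **D1.** The place facts of a function field of one variable over an algebraically closed
field of any characteristic. -/
theorem placeFacts_of_isFF1s (hx : IsFF1s K F x) : PlaceFacts K F :=
  placeFacts_of_pf0 (pf0_of_isFF1s hx) hx

theorem finrank_rrSpace_zero_of_isFF1s (hx : IsFF1s K F x) :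
    Module.finrank K (riemannRochSpace (0 : Divisor K F)) = 1 :=
  finrank_rrSpace_zero (pf0_of_isFF1s hx)

theorem exists_place_of_isFF1s (hx : IsFF1s K F x) : Nonempty (Place K F) := by
  obtain ⟨v, -⟩ := exists_pole (pf0_of_isFF1s hx) hx.toFF1
  exact ⟨v⟩

/-- **D3. Riemann's inequality** -/
theorem riemann_inequality (hx : IsFF1s K F x) :
    ∃ g : ℤ, ∀ E : Divisor K F,
      Divisor.degree E + 1 - g ≤ (Module.finrank K (riemannRochSpace E) : ℤ) :=
  riemann_inequality_of_pf0 (pf0_of_isFF1s hx) hx

/-- in characteristic zero every element with `F/K(x)` finite is separating -/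
theorem IsFF1s.of_isFF1 [CharZero K] (hx : IsFF1 K F x) : IsFF1s K F x := by
  haveI := hx.finite
  exact ⟨hx.transcendental, hx.finite, inferInstance⟩

end Fermat.Agent.Lib.FFs
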