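import Fermat.Agent.Lib.FFs.Reduced
import Fermat.Agent.Lib.FunctionField.DWCount

/-!
# Function fields in any characteristic, part 6: counting

Port of `DWCount.lean` to `PF0` (weak place facts).
-/

set_option autoImplicit false
set_option linter.unusedSectionVars false
set_option linter.unusedVariables false
set_option linter.style.haveILetI false
set_option linter.deprecated false

open AlgebraicCurve IntermediateField Polynomial Module
open Fermat.Agent.Lib.FF

namespace Fermat.Agent.Lib.FFs

variable {K F : Type*} [Field K] [Field F] [Algebra K F]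
variable {x : F}

section Pol

variable [IsAlgClosed K]

theorem mem_degreeLT_toNat_iff (p : K[X]) (k : ℤ) :
    p ∈ Polynomial.degreeLT K (k + 1).toNat ↔ p = 0 ∨ (p.natDegree : ℤ) ≤ k := by
  rw [Polynomial.mem_degreeLT]
  by_cases hp : p = 0
  · simp [hp, WithBot.bot_lt_coe]
  · rw [Polynomial.degree_eq_natDegree hp, or_iff_right hp]
    rw [Nat.cast_lt]
    omega

theorem mem_polSpace_iff_exists (hpf : PF0 K F) (hx : IsFF1 K F x) {k : ℤ} {c : F} :
    c ∈ polSpace K x k ↔
      ∃ p : K[X], p ∈ Polynomial.degreeLT K (k + 1).toNat ∧ Polynomial.aeval x p = c := by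
  constructor
  · rintro ⟨h1, h2, h3⟩
    obtain ⟨p, rfl⟩ := exists_poly_of_finReg hpf hx h1 h2
    exact ⟨p, (mem_degreeLT_toNat_iff p k).mpr ((degLE_aeval_iff hpf hx p k).mp h3), rfl⟩
  · rintro ⟨p, hp, rfl⟩
    exact ⟨aeval_mem_adjoin x p, FinReg.aeval p,
      (degLE_aeval_iff hpf hx p k).mpr ((mem_degreeLT_toNat_iff p k).mp hp)⟩

theorem finrank_polSpace (hpf : PF0 K F) (hx : IsFF1 K F x) (k : ℤ) :
    Module.finrank K (polSpace K x k) = (k + 1).toNat := by
  let f : Polynomial.degreeLT K (k + 1).toNat →ₗ[K] F :=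
    (Polynomial.aeval x).toLinearMap ∘ₗ (Polynomial.degreeLT K (k + 1).toNat).subtype
  have hinj : Function.Injective f := by
    rw [← LinearMap.ker_eq_bot, LinearMap.ker_eq_bot']
    rintro ⟨p, hp⟩ h0
    apply Subtype.ext
    by_contra hne
    exact hx.transcendental ⟨p, hne, h0⟩
  have hrange : LinearMap.range f = polSpace K x k := by
    ext c
    rw [mem_polSpace_iff_exists hpf hx]
    constructor
    · rintro ⟨⟨p, hp⟩, rfl⟩
      exact ⟨p, hp, rfl⟩
    · rintro ⟨p, hp, rfl⟩
      exact ⟨⟨p, hp⟩, rfl⟩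
  rw [← hrange, LinearMap.finrank_range_of_inj hinj,
    (Polynomial.degreeLTEquiv K (k + 1).toNat).finrank_eq, Module.finrank_fin_fun]

theorem finite_polSpace (hpf : PF0 K F) (hx : IsFF1 K F x) (k : ℤ) : Module.Finite K (polSpace K x k) := by
  let f : Polynomial.degreeLT K (k + 1).toNat →ₗ[K] F :=
    (Polynomial.aeval x).toLinearMap ∘ₗ (Polynomial.degreeLT K (k + 1).toNat).subtype
  have hrange : LinearMap.range f = polSpace K x k := by
    ext c
    rw [mem_polSpace_iff_exists hpf hx]
    constructor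
    · rintro ⟨⟨p, hp⟩, rfl⟩
      exact ⟨p, hp, rfl⟩
    · rintro ⟨p, hp, rfl⟩
      exact ⟨⟨p, hp⟩, rfl⟩
  haveI : Module.Finite K (Polynomial.degreeLT K (k + 1).toNat) :=
    Module.Finite.equiv (Polynomial.degreeLTEquiv K (k + 1).toNat).symm
  rw [← hrange]
  exact Module.Finite.range f

end Pol

section Coord

variable {ι : Type*} [Fintype ι] (β : Basis ι K⟮x⟯ F) (k : ι → ℤ)
variable [IsAlgClosed K]

theorem finrank_coordSpace (hpf : PF0 K F) (hx : IsFF1 K F x) :
    Module.finrank K (coordSpace β k) = ∑ i, (k i + 1).toNat := by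
  haveI : ∀ i, Module.Finite K (polSpace K x (k i)) := fun i => finite_polSpace hpf hx (k i)
  rw [(coordSpaceEquiv β k).finrank_eq, Module.finrank_pi_fintype]
  exact Finset.sum_congr rfl fun i _ => finrank_polSpace hpf hx (k i)

theorem finite_coordSpace (hpf : PF0 K F) (hx : IsFF1 K F x) : Module.Finite K (coordSpace β k) := by
  haveI : ∀ i, Module.Finite K (polSpace K x (k i)) := fun i => finite_polSpace hpf hx (k i)
  exact Module.Finite.equiv (coordSpaceEquiv β k).symm

end Coord

end Fermat.Agent.Lib.FFs
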