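import Fermat.Agent.Lib.FFs.Const

/-!
# Function fields in any characteristic, part 12: the trace dual of a reduced basis

For a separating element `x` and a reduced basis `(b, d)` of `F/K(x)`: the functions which are
regular up to `e_v - 1` at the finite places and of degree at most `m` up to `e_v - 1` at the
poles of `x` lie in `coordSpace b.traceDual (m + d)` (one direction of `DWDual.lean`; no tameness
needed).
-/

set_option autoImplicit false
set_option linter.unusedSectionVars false
set_option linter.unusedVariables false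
set_option linter.style.haveILetI false
set_option linter.deprecated false

open AlgebraicCurve IntermediateField Polynomial Module
open Fermat.Agent.Lib.FF

namespace Fermat.Agent.Lib.FFs

variable {K F : Type*} [Field K] [Field F] [Algebra K F]
variable {x : F}

section Facts

variable [IsAlgClosed K]

/-- the trace of `h * w` is regular over `y = 0` if `h` has poles of order at most `e - 1` and
`w` is regular there -/
theorem trX_mul_regular_at_zero {y : F} (hy : IsFF1s K F y) (h : F)
    (hh : ∀ v : Place K F, 0 < v.ord y → h = 0 ∨ 1 - v.ord y ≤ v.ord h) (w : F)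
    (hw : ∀ v : Place K F, 0 < v.ord y → 0 ≤ v.ord w) :
    ∀ v : Place K F, 0 < v.ord y → 0 ≤ v.ord (trX K y (h * w)) := by
  apply trace_regular_at_zero hy
  intro Q hQ
  by_cases h0 : h * w = 0
  · exact Or.inl h0
  right
  have hh0 : h ≠ 0 := left_ne_zero_of_mul h0
  have hw0 : w ≠ 0 := right_ne_zero_of_mul h0
  rw [Q.ord_mul hh0 hw0]
  have h1 := (hh Q hQ).resolve_left hh0
  have h2 := hw Q hQ
  omega

theorem finReg_trX_of_regDual (hx : IsFF1s K F x) {h : F} (hh : RegDual K x h) (w : F)
    (hw : FinReg K x w) : FinReg K x (trX K x (h * w)) := by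
  intro v hv
  obtain ⟨a, ha⟩ := exists_ord_sub_pos hx.transcendental v
    (algebraMap_residueField_surjective hx v) hv
  have := trX_mul_regular_at_zero (hx.sub a) h (fun v' hv' => hh v' a hv') w
    (fun v' hv' => hw v' (ord_nonneg_of_ord_sub_pos hv')) v ha
  rwa [trX_sub_algebraMap] at this

theorem degLE_trX_of_infDual (hx : IsFF1s K F x) {h : F} (hh : InfDual K x 0 h) (w : F)
    (hw : DegLE K x 0 w) : DegLE K x 0 (trX K x (h * w)) := by
  have hinv : ∀ v : Place K F, 0 < v.ord x⁻¹ ↔ v.ord x < 0 := fun v => by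
    rw [v.ord_inv]; omega
  have h1 : ∀ v : Place K F, 0 < v.ord x⁻¹ → h = 0 ∨ 1 - v.ord x⁻¹ ≤ v.ord h := by
    intro v hv
    rcases hh v ((hinv v).mp hv) with h0 | h1
    · exact Or.inl h0
    · right
      rw [v.ord_inv]
      linarith
  have h2 : ∀ v : Place K F, 0 < v.ord x⁻¹ → 0 ≤ v.ord w := by
    intro v hv
    rcases hw v ((hinv v).mp hv) with h0 | h1
    · rw [h0, v.ord_zero]
    · rwa [zero_mul] at h1
  have h3 := trX_mul_regular_at_zero hx.inv h h1 w h2
  intro v hv
  right
  rw [zero_mul]
  have := h3 v ((hinv v).mpr hv)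
  rwa [trX_inv] at this

end Facts

section Spaces

variable [IsAlgClosed K]
variable {ι : Type*} [Fintype ι] {b : Basis ι K⟮x⟯ F} {d : ι → ℕ}

theorem infDual_zpow_mul_iff (hx : IsFF1 K F x) (m : ℤ) (f : F) :
    InfDual K x 0 (x ^ (-m) * f) ↔ InfDual K x m f := by
  have hx0 : x ≠ 0 := by
    rintro rfl
    exact hx.transcendental isAlgebraic_zero
  have hz : x ^ (-m) ≠ 0 := zpow_ne_zero _ hx0
  constructor
  · intro hf v hv
    by_cases hf0 : f = 0
    · exact Or.inl hf0
    right
    have := (hf v hv).resolve_left (mul_ne_zero hz hf0)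
    rw [v.ord_mul hz hf0, v.ord_zpow] at this
    linarith
  · intro hf v hv
    by_cases hf0 : f = 0
    · exact Or.inl (by rw [hf0, mul_zero])
    right
    have := (hf v hv).resolve_left hf0
    rw [v.ord_mul hz hf0, v.ord_zpow]
    linarith


theorem degLE_trX_repr (hx : IsFF1s K F x) (h : IsReducedBasis K x b d) (m : ℤ) {f : F}
    (hf : InfDual K x m f) (i : ι) : DegLE K x (m + d i) (trX K x (f * b i)) := by
  have hx0 : x ≠ 0 := by
    rintro rfl
    exact hx.transcendental isAlgebraic_zero
  have hxmem : ∀ k : ℤ, x ^ k ∈ K⟮x⟯ := fun k => zpow_mem (mem_adjoin_simple_self K x) k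
  have hf' : InfDual K x 0 (x ^ (-m) * f) := (infDual_zpow_mul_iff hx.toFF1 m f).mpr hf
  have h1 : DegLE K x 0 (x ^ (-(d i : ℤ)) * b i) := by
    rw [DegLE.zpow_mul_iff hx0]
    simpa using h.deg i
  have h2 := degLE_trX_of_infDual hx hf' _ h1
  have h3 : x ^ (-m) * f * (x ^ (-(d i : ℤ)) * b i) = x ^ (-m - d i) * (f * b i) := by
    rw [sub_eq_add_neg, zpow_add₀ hx0]
    ring
  rw [h3, trX_mul_left (hxmem _), DegLE.zpow_mul_iff hx0] at h2
  have h4 : (0 : ℤ) - (-m - d i) = m + d i := by ring
  rwa [h4] at h2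

variable [DecidableEq ι] [FiniteDimensional K⟮x⟯ F] [Algebra.IsSeparable K⟮x⟯ F]

theorem traceDual_repr_coe (f : F) (i : ι) :
    ((b.traceDual.repr f i : K⟮x⟯) : F) = trX K x (f * b i) := by
  rw [Basis.traceDual_repr_apply, Algebra.traceForm_apply]
  rfl


/-- the functions which are regular up to the different lie in the coordinate space of the trace
dual basis -/
theorem mem_coordSpace_traceDual_of (hx : IsFF1s K F x) (h : IsReducedBasis K x b d)
    (m : ℤ) {f : F} (h1 : RegDual K x f) (h2 : InfDual K x m f) :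
    f ∈ coordSpace b.traceDual (fun i => m + d i) := by
  rw [mem_coordSpace]
  intro i
  rw [traceDual_repr_coe]
  exact ⟨trX_mem _, finReg_trX_of_regDual hx h1 (b i) (h.reg i), degLE_trX_repr hx h m h2 i⟩

end Spaces

end Fermat.Agent.Lib.FFs
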