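import Fermat.Agent.Lib.FFs.Sep
import Fermat.Agent.Lib.FunctionField.DWBasic

/-!
# Function fields in any characteristic, part 2: place facts

`PFs K F`: the facts about places which hold for a function field of one variable over an
algebraically closed field of any characteristic, formulated for separating elements.
Characteristic free port of the `PlaceFacts` API (`fib`, `pol`, `divOf`, ...).
-/

set_option autoImplicit false
set_option linter.style.haveILetI false
set_option linter.unusedSectionVars false
set_option linter.deprecated false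

open AlgebraicCurve WithZero IsDedekindDomain IntermediateField Polynomial
open scoped IntermediateField.algebraAdjoinAdjoin
open Fermat.Agent.Lib.FF

namespace Fermat.Agent.Lib.FFs

variable {K F : Type*} [Field K] [Field F] [Algebra K F]

theorem IsFF1s.toFF1 {x : F} (hx : IsFF1s K F x) : IsFF1 K F x := ⟨hx.transcendental, hx.finite⟩

/-- place facts in any characteristic -/
structure PFs (K F : Type*) [Field K] [Field F] [Algebra K F] : Prop where
  res : ∀ v : Place K F, Function.Surjective (algebraMap K v.ResidueField)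
  finite_zeros : ∀ y : F, IsFF1s K F y → {v : Place K F | 0 < v.ord y}.Finite
  sum_ord_zeros : ∀ (y : F) (hy : IsFF1s K F y),
    ∑ v ∈ (finite_zeros y hy).toFinset, v.ord y = (Module.finrank K⟮y⟯ F : ℤ)
  finite_ord_ne_zero : ∀ f : F, f ≠ 0 → {v : Place K F | v.ord f ≠ 0}.Finite

section Fibres

variable {x : F} (hpf : PFs K F) (hx : IsFF1s K F x)

/-- the fibre of `x` over `a`, as a finset -/
noncomputable def PFs.fib (a : K) : Finset (Place K F) :=
  (hpf.finite_zeros (x - algebraMap K F a) (hx.sub a)).toFinset

/-- the polar fibre of `x`, as a finset -/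
noncomputable def PFs.pol : Finset (Place K F) :=
  (hpf.finite_zeros x⁻¹ hx.inv).toFinset

theorem PFs.mem_fib {a : K} {v : Place K F} :
    v ∈ hpf.fib hx a ↔ 0 < v.ord (x - algebraMap K F a) := by
  rw [PFs.fib, Set.Finite.mem_toFinset]
  exact Iff.rfl

theorem PFs.mem_pol {v : Place K F} : v ∈ hpf.pol hx ↔ v.ord x < 0 := by
  rw [PFs.pol, Set.Finite.mem_toFinset]
  show 0 < v.ord x⁻¹ ↔ _
  rw [v.ord_inv]
  omega

theorem PFs.sum_fib (a : K) :
    ∑ v ∈ hpf.fib hx a, v.ord (x - algebraMap K F a) = (Module.finrank K⟮x⟯ F : ℤ) := by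
  rw [PFs.fib, hpf.sum_ord_zeros _ (hx.sub a), finrank_adjoin_sub_algebraMap]

theorem PFs.sum_pol :
    ∑ v ∈ hpf.pol hx, v.ord x = -(Module.finrank K⟮x⟯ F : ℤ) := by
  have := hpf.sum_ord_zeros x⁻¹ hx.inv
  rw [finrank_adjoin_inv] at this
  rw [← this, PFs.pol, ← Finset.sum_neg_distrib]
  refine Finset.sum_congr rfl fun v _ => ?_
  rw [v.ord_inv, neg_neg]

theorem PFs.disjoint_fib {a b : K} (hab : a ≠ b) :
    Disjoint (hpf.fib hx a) (hpf.fib hx b) := by
  rw [Finset.disjoint_left]
  intro v ha hb
  exact hab (eq_of_ord_sub_pos v ((hpf.mem_fib hx).mp ha) ((hpf.mem_fib hx).mp hb))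

theorem PFs.disjoint_pol_fib [DecidableEq (Place K F)] (A : Finset K) :
    Disjoint (hpf.pol hx) (A.biUnion (hpf.fib hx)) := by
  rw [Finset.disjoint_left]
  intro v hp hf
  obtain ⟨a, -, ha⟩ := Finset.mem_biUnion.mp hf
  have h1 := (hpf.mem_pol hx).mp hp
  have h2 := (hpf.mem_fib hx).mp ha
  rw [ord_sub_algebraMap_of_neg v h1 a] at h2
  omega

end Fibres

/-! ### the divisor of a function -/

/-- the divisor of a function (zero for the zero function) -/
noncomputable def PFs.divOf (hpf : PFs K F) (f : F) : Divisor K F :=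
  letI := Classical.propDecidable
  if hf : f = 0 then 0
  else Finsupp.ofSupportFinite (fun v => v.ord f) (hpf.finite_ord_ne_zero f hf)

theorem PFs.divOf_apply (hpf : PFs K F) (f : F) (v : Place K F) :
    hpf.divOf f v = v.ord f := by
  unfold PFs.divOf
  by_cases hf : f = 0
  · simp [hf]
  · simp only [hf, dite_false]
    rfl

theorem PFs.degree_single (hpf : PFs K F) (P : Place K F) (n : ℤ) :
    Divisor.degree (Finsupp.single P n) = n := by
  rw [Divisor.degree_single, deg_eq_one_of_res P (hpf.res P)]
  simp

/-! ### finiteness of the set of zeros and poles -/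

section Finite

variable [IsAlgClosed K] {x : F}

/-- a polynomial in `x` has finitely many zeros -/
theorem finite_zeros_aeval (hx : IsFF1s K F x) (q : K[X]) (hq : q ≠ 0) :
    {v : Place K F | 0 < v.ord (Polynomial.aeval x q)}.Finite := by
  classical
  have hsub : {v : Place K F | 0 < v.ord (Polynomial.aeval x q)} ⊆
      ⋃ a ∈ q.roots.toFinset, {v : Place K F | 0 < v.ord (x - algebraMap K F a)} := by
    intro v hv
    rw [Set.mem_setOf_eq] at hv
    have hvx : 0 ≤ v.ord x := by
      by_contra hneg
      push Not at hneg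
      rw [ord_aeval_of_neg hx.transcendental v hneg q hq] at hv
      have : (q.natDegree : ℤ) * v.ord x ≤ 0 :=
        mul_nonpos_of_nonneg_of_nonpos (Int.natCast_nonneg _) hneg.le
      omega
    obtain ⟨a, ha⟩ := exists_ord_sub_pos hx.transcendental v
      (algebraMap_residueField_surjective hx v) hvx
    simp only [Set.mem_iUnion, Set.mem_setOf_eq, Multiset.mem_toFinset, exists_prop]
    refine ⟨a, ?_, ha⟩
    rw [Polynomial.mem_roots hq]
    by_contra hra
    -- `q(a) ≠ 0`, so `q(x)` is a unit at `v`
    obtain ⟨t, ht⟩ := Polynomial.X_sub_C_dvd_sub_C_eval (a := a) (p := q)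
    have h1 : Polynomial.aeval x q = algebraMap K F (q.eval a)
        + (x - algebraMap K F a) * Polynomial.aeval x t := by
      have := congrArg (Polynomial.aeval x) ht
      rw [map_sub, aeval_C, map_mul, map_sub, aeval_X, aeval_C] at this
      rw [← this]
      ring
    have hc : algebraMap K F (q.eval a) ≠ 0 := by
      rwa [Ne, map_eq_zero]
    have h0 : v.ord (Polynomial.aeval x q) = 0 := by
      by_cases h0 : (x - algebraMap K F a) * Polynomial.aeval x t = 0
      · rw [h1, h0, add_zero, ord_algebraMap]
      · have hx0 : x - algebraMap K F a ≠ 0 := left_ne_zero_of_mul h0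
        have ht0 : Polynomial.aeval x t ≠ 0 := right_ne_zero_of_mul h0
        rw [h1, ord_add_of_lt v _ hc, ord_algebraMap]
        rw [ord_algebraMap, v.ord_mul hx0 ht0]
        have := FinReg.aeval (K := K) (x := x) t v hvx
        omega
    omega
  refine Set.Finite.subset ?_ hsub
  refine Set.Finite.biUnion (Finset.finite_toSet _) fun a _ => ?_
  exact finite_zeros (hx.sub a)

/-- every nonzero element has finitely many poles -/
theorem finite_poles (hx : IsFF1s K F x) (f : F) (hf : f ≠ 0) :
    {v : Place K F | v.ord f < 0}.Finite := by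
  haveI := isPrincipalIdealRing_adjoin K x
  have halg := hx.toFF1.isAlgebraic_adjoin
  obtain ⟨d, hd0, hd⟩ := (halg.isAlgebraic f).exists_integral_multiple
  obtain ⟨q, rfl⟩ := aeval_genAdjoin_surjective K x d
  have hq0 : q ≠ 0 := by
    rintro rfl
    exact hd0 (map_zero _)
  have hdF : ((Polynomial.aeval (genAdjoin K x) q : Algebra.adjoin K {x}) : F)
      = Polynomial.aeval x q := by
    rw [← Subalgebra.coe_val, ← Polynomial.aeval_algHom_apply]
    rfl
  have hqx0 : Polynomial.aeval x q ≠ 0 :=
    aeval_ne_zero_of_transcendental hx.transcendental q hq0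
  have hpolx : {v : Place K F | v.ord x < 0}.Finite := by
    have := finite_zeros hx.inv
    refine this.subset fun v hv => ?_
    show 0 < v.ord x⁻¹
    rw [v.ord_inv]
    have : v.ord x < 0 := hv
    omega
  refine (hpolx.union (finite_zeros_aeval hx q hq0)).subset ?_
  intro v hv
  rw [Set.mem_setOf_eq] at hv
  by_cases hvx : v.ord x < 0
  · exact Or.inl hvx
  · right
    rw [Set.mem_setOf_eq]
    push Not at hvx
    have h1 : 0 ≤ v.ord ((Polynomial.aeval (genAdjoin K x) q : Algebra.adjoin K {x}) • f) :=
      ord_nonneg_of_mem v (intClosure_le_of_ord_nonneg K x v hvx ⟨_, hd⟩)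
    rw [Algebra.smul_def] at h1
    change 0 ≤ v.ord (((Polynomial.aeval (genAdjoin K x) q : Algebra.adjoin K {x}) : F) * f) at h1
    rw [hdF, v.ord_mul hqx0 hf] at h1
    omega

theorem finite_ord_ne_zero (hx : IsFF1s K F x) (f : F) (hf : f ≠ 0) :
    {v : Place K F | v.ord f ≠ 0}.Finite := by
  have h1 := finite_poles hx f hf
  have h2 := finite_poles hx f⁻¹ (inv_ne_zero hf)
  refine (h1.union h2).subset ?_
  intro v hv
  have hv' : v.ord f ≠ 0 := hv
  rcases lt_or_gt_of_ne hv' with h | h
  · exact Or.inl h
  · right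
    show v.ord f⁻¹ < 0
    rw [v.ord_inv]
    omega

/-- the place facts of a function field of one variable (any characteristic) -/
theorem pfs_of_isFF1s (hx : IsFF1s K F x) : PFs K F where
  res := fun v => algebraMap_residueField_surjective hx v
  finite_zeros := fun _ hy => finite_zeros hy
  sum_ord_zeros := fun _ hy => sum_ord_zeros hy
  finite_ord_ne_zero := finite_ord_ne_zero hx

end Finite

end Fermat.Agent.Lib.FFs
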