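import Fermat.Agent.Lib.FFs.Riemann
import Fermat.Agent.Lib.FunctionField.PlaceFactsCore

/-!
# Function fields in any characteristic, part 9: `PlaceFacts`

From the weak place facts `PF0` and a separating element we get the fundamental identity
`deg (y)_∞ = [F : K(y)]` for EVERY transcendental `y` (comparison of the growth of `ℓ(m (y)_∞)`
with Riemann's inequality), hence the full `PlaceFacts` structure of the characteristic zero
library, in any characteristic.
-/

set_option autoImplicit false
set_option linter.unusedSectionVars false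
set_option linter.unusedVariables false
set_option linter.style.haveILetI false
set_option linter.deprecated false

open AlgebraicCurve IntermediateField Polynomial Module
open Fermat.Agent.Lib.FF

namespace Fermat.Agent.Lib.FFs

variable {K F : Type*} [Field K] [Field F] [Algebra K F] [IsAlgClosed K]
variable {x : F}

/-- `deg (y)_∞ = [F : K(y)]` for every transcendental `y` -/
theorem degree_poleDiv_eq_finrank (hpf : PF0 K F) (hx : IsFF1s K F x) {y : F}
    (hy : Transcendental K y) :
    Divisor.degree (hpf.poleDiv y) = (Module.finrank K⟮y⟯ F : ℤ) := by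
  classical
  have hy' : IsFF1 K F y := isFF1_of_transcendental hx.toFF1 y hy
  obtain ⟨b, d, hred⟩ := exists_reducedBasis hpf hx.toFF1
  obtain ⟨b', d', hred'⟩ := exists_reducedBasis hpf hy'
  obtain ⟨P₀, -⟩ := exists_pole hpf hx.toFF1
  set n : ℤ := (Module.finrank K⟮y⟯ F : ℤ) with hn
  set nx : ℤ := (Module.finrank K⟮x⟯ F : ℤ) with hnx
  set M : ℕ := ∑ i, d i with hM
  set M' : ℕ := ∑ i, d' i with hM'
  set δ : ℤ := Divisor.degree (hpf.poleDiv y) with hδ
  have hn0 : 0 ≤ n := Int.natCast_nonneg _
  have hnx0 : 0 ≤ nx := Int.natCast_nonneg _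
  have hδ0 : 0 ≤ δ := degree_nonneg_of_nonneg hpf (hpf.poleDiv_nonneg y)
  have hup : ∀ m : ℕ, M' ≤ m → n * (m + 1) - M' ≤ m * δ + 1 := by
    intro m hm
    have h1 := finrank_rrSpace_smul_poleDiv hpf hy' hred' m hm
    have h2 : (0 : Divisor K F) ≤ (m : ℤ) • hpf.poleDiv y :=
      smul_nonneg (Int.natCast_nonneg _) (hpf.poleDiv_nonneg y)
    have h3 := finrank_rrSpace_le_of_nonneg hpf P₀ h2
    rw [h1, map_zsmul, smul_eq_mul] at h3
    exact h3
  have hlow : ∀ m : ℕ, M' ≤ m → m * δ + nx - M ≤ n * (m + 1) - M' := by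
    intro m hm
    have h1 := finrank_rrSpace_smul_poleDiv hpf hy' hred' m hm
    have h3 := riemann_aux hpf hx hred ((m : ℤ) • hpf.poleDiv y)
    rw [h1, map_zsmul, smul_eq_mul] at h3
    exact h3
  apply le_antisymm
  · -- `δ ≤ n`
    by_contra hcon
    push Not at hcon
    have h1 := hlow (M' + (Module.finrank K⟮y⟯ F) + M + 1) (by omega)
    push_cast at h1
    have h2 : ((M' : ℤ) + n + M + 1) * (n + 1) ≤ ((M' : ℤ) + n + M + 1) * δ :=
      mul_le_mul_of_nonneg_left (by omega) (by positivity)
    nlinarith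
  · -- `n ≤ δ`
    by_contra hcon
    push Not at hcon
    have h1 := hup (M' + 1) (by omega)
    push_cast at h1
    have h2 : (δ + 1) * ((M' : ℤ) + 1 + 1) ≤ n * ((M' : ℤ) + 1 + 1) :=
      mul_le_mul_of_nonneg_right (by omega) (by positivity)
    nlinarith

/-- the fundamental identity on the zero fibre, for every transcendental `y` -/
theorem sum_ord_zeros_of_pf0 (hpf : PF0 K F) (hx : IsFF1s K F x) (y : F)
    (hy : Transcendental K y) (hfin : {v : Place K F | 0 < v.ord y}.Finite) :
    ∑ v ∈ hfin.toFinset, v.ord y = (Module.finrank K⟮y⟯ F : ℤ) := by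
  have h1 := degree_poleDiv_eq_finrank hpf hx (transcendental_inv hy)
  rw [finrank_adjoin_inv, hpf.degree_poleDiv] at h1
  rw [← h1]
  have heq : hfin.toFinset = hpf.pol y⁻¹ := by
    ext v
    rw [Set.Finite.mem_toFinset, hpf.mem_pol, v.ord_inv]
    show 0 < v.ord y ↔ _
    omega
  rw [heq]
  refine Finset.sum_congr rfl fun v _ => ?_
  rw [v.ord_inv, neg_neg]

/-- `PlaceFacts` from the weak place facts and a separating element -/
theorem placeFacts_of_pf0 (hpf : PF0 K F) (hx : IsFF1s K F x) : PlaceFacts K F := by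
  have hfin : ∀ y : F, Transcendental K y → {v : Place K F | 0 < v.ord y}.Finite := by
    intro y hy
    have hy0 : y ≠ 0 := by
      rintro rfl
      exact hy isAlgebraic_zero
    exact (hpf.finite_ord_ne_zero y hy0).subset fun v hv => ne_of_gt hv
  exact PlaceFacts.of_core hpf.res hfin
    (fun y hy => sum_ord_zeros_of_pf0 hpf hx y hy (hfin y hy))

/-- **Riemann's inequality** -/
theorem riemann_inequality_of_pf0 (hpf : PF0 K F) (hx : IsFF1s K F x) :
    ∃ g : ℤ, ∀ E : Divisor K F,
      Divisor.degree E + 1 - g ≤ (Module.finrank K (riemannRochSpace E) : ℤ) := by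
  classical
  obtain ⟨b, d, hred⟩ := exists_reducedBasis hpf hx.toFF1
  refine ⟨((∑ i, d i : ℕ) : ℤ) - (Module.finrank K⟮x⟯ F : ℤ) + 1, fun E => ?_⟩
  have := riemann_aux hpf hx hred E
  omega

end Fermat.Agent.Lib.FFs
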