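import Fermat.Agent.Lib.FFs.Count

/-!
# Function fields in any characteristic, part 7: the spaces `L(m (x)_∞)`

For any transcendental `x` with `F/K(x)` finite and a reduced basis `(b, d)`:
`L(m (x)_∞) = coordSpace b (m - d)`, hence `ℓ(m (x)_∞) = n (m + 1) - Σ d` for `m ≥ Σ d`.
-/

set_option autoImplicit false
set_option linter.unusedSectionVars false
set_option linter.unusedVariables false
set_option linter.style.haveILetI false
set_option linter.deprecated false

open AlgebraicCurve IntermediateField Polynomial Module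
open Fermat.Agent.Lib.FF

namespace Fermat.Agent.Lib.FFs

variable {K F : Type*} [Field K] [Field F] [Algebra K F]
variable {x : F}

/-- the polar divisor `(x)_∞` -/
noncomputable def PF0.poleDiv (hpf : PF0 K F) (x : F) : Divisor K F :=
  (hpf.divOf x).mapRange (fun n : ℤ => max (-n) 0) (by simp)

theorem PF0.poleDiv_apply (hpf : PF0 K F) (x : F) (v : Place K F) :
    hpf.poleDiv x v = max (- v.ord x) 0 := by
  rw [PF0.poleDiv, Finsupp.mapRange_apply, hpf.divOf_apply]

theorem PF0.poleDiv_of_neg (hpf : PF0 K F) {x : F} {v : Place K F}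
    (hv : v.ord x < 0) : hpf.poleDiv x v = - v.ord x := by
  rw [hpf.poleDiv_apply, max_eq_left (by omega)]

theorem PF0.poleDiv_of_nonneg (hpf : PF0 K F) {x : F} {v : Place K F}
    (hv : 0 ≤ v.ord x) : hpf.poleDiv x v = 0 := by
  rw [hpf.poleDiv_apply, max_eq_right (by omega)]

theorem PF0.poleDiv_nonneg (hpf : PF0 K F) (x : F) : 0 ≤ hpf.poleDiv x := by
  rw [Finsupp.le_def]
  intro v
  rw [hpf.poleDiv_apply]
  exact le_max_right _ _

theorem PF0.degree_poleDiv (hpf : PF0 K F) (x : F) :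
    Divisor.degree (hpf.poleDiv x) = ∑ v ∈ hpf.pol x, - v.ord x := by
  classical
  have hsupp : (hpf.poleDiv x).support ⊆ hpf.pol x := by
    intro v hv
    rw [Finsupp.mem_support_iff] at hv
    rw [hpf.mem_pol]
    by_contra hneg
    exact hv (hpf.poleDiv_of_nonneg (not_lt.mp hneg))
  rw [degree_eq_sum_of_res hpf.res _ _ hsupp]
  exact Finset.sum_congr rfl fun v hv => hpf.poleDiv_of_neg (hpf.mem_pol.mp hv)

theorem sum_toNat_cast {ι : Type*} [Fintype ι] (k : ι → ℤ) (hk : ∀ i, 0 ≤ k i) :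
    ((∑ i, (k i).toNat : ℕ) : ℤ) = ∑ i, k i := by
  push_cast
  exact Finset.sum_congr rfl fun i _ => Int.toNat_of_nonneg (hk i)

section Spaces

variable [IsAlgClosed K]
variable {ι : Type*} [Fintype ι] {b : Basis ι K⟮x⟯ F} {d : ι → ℕ}

/-- the space `L(m (x)_∞)` in the coordinates of a reduced basis -/
theorem mem_coordSpace_reduced (hpf : PF0 K F) (hx : IsFF1 K F x) (h : IsReducedBasis K x b d)
    (m : ℤ) (w : F) :
    w ∈ coordSpace b (fun i => m - d i) ↔ FinReg K x w ∧ DegLE K x m w := by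
  rw [mem_coordSpace]
  constructor
  · intro hw
    exact ⟨IsGoodBasis.finReg_of_repr h.toIsGoodBasis fun i => (hw i).2.1,
      IsGoodBasis.degLE_of_repr h.toIsGoodBasis fun i => (hw i).2.2⟩
  · rintro ⟨hreg, hdeg⟩ i
    obtain ⟨p, hp⟩ := IsReducedBasis.repr_poly hpf hx h hreg i
    refine ⟨(b.repr w i).2, ?_, IsReducedBasis.repr_degLE hpf hx h hreg hdeg i⟩
    rw [hp]
    exact FinReg.aeval p

/-- `L(m (x)_∞)` in coordinates -/
theorem rrSpace_smul_poleDiv (hpf : PF0 K F) (hx : IsFF1 K F x)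
    (h : IsReducedBasis K x b d) (m : ℤ) :
    riemannRochSpace (m • hpf.poleDiv x) = coordSpace b (fun i => m - d i) := by
  ext w
  rw [mem_coordSpace_reduced hpf hx h, mem_rrSpace_iff]
  constructor
  · intro hw
    refine ⟨fun v hv => ?_, fun v hv => ?_⟩
    · rcases hw v with h0 | h1
      · rw [h0, v.ord_zero]
      · rw [Finsupp.smul_apply, hpf.poleDiv_of_nonneg hv] at h1
        simpa using h1
    · rcases hw v with h0 | h1
      · exact Or.inl h0
      · right
        rw [Finsupp.smul_apply, hpf.poleDiv_of_neg hv, smul_eq_mul] at h1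
        linarith
  · rintro ⟨hreg, hdeg⟩ v
    by_cases hv : 0 ≤ v.ord x
    · right
      rw [Finsupp.smul_apply, hpf.poleDiv_of_nonneg hv]
      simpa using hreg v hv
    · push Not at hv
      rcases hdeg v hv with h0 | h1
      · exact Or.inl h0
      · right
        rw [Finsupp.smul_apply, hpf.poleDiv_of_neg hv, smul_eq_mul]
        linarith

/-- `ℓ(m (x)_∞) = n (m + 1) - Σ d` for `m ≥ Σ d` -/
theorem finrank_rrSpace_smul_poleDiv (hpf : PF0 K F) (hx : IsFF1 K F x)
    (h : IsReducedBasis K x b d) (m : ℕ) (hm : ∑ i, d i ≤ m) :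
    (Module.finrank K (riemannRochSpace ((m : ℤ) • hpf.poleDiv x)) : ℤ)
      = (Module.finrank K⟮x⟯ F : ℤ) * (m + 1) - ((∑ i, d i : ℕ) : ℤ) := by
  haveI := hx.finite
  have hnrank : Module.finrank K⟮x⟯ F = Fintype.card ι := Module.finrank_eq_card_basis b
  have hdM : ∀ i, d i ≤ m := fun i =>
    (Finset.single_le_sum (f := d) (fun _ _ => Nat.zero_le _) (Finset.mem_univ i)).trans hm
  have hcard : (∑ _i : ι, (1 : ℤ)) = Fintype.card ι := by simp
  rw [rrSpace_smul_poleDiv hpf hx h, finrank_coordSpace _ _ hpf hx,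
    sum_toNat_cast _ (fun i => by have := hdM i; omega)]
  have h1 : ∑ i : ι, ((m : ℤ) - d i + 1) = (m + 1) * ∑ _i : ι, (1 : ℤ) - ∑ i, (d i : ℤ) := by
    rw [Finset.mul_sum, ← Finset.sum_sub_distrib]
    exact Finset.sum_congr rfl fun i _ => by ring
  rw [h1, hcard, hnrank]
  push_cast
  ring

end Spaces

end Fermat.Agent.Lib.FFs
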