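import Fermat.Agent.Lib.FFs.Dual

/-!
# Function fields in any characteristic, part 13: the Riemann–Hurwitz inequality

For a separating element `x` of `F/K` (`K` algebraically closed, any characteristic), a finite
set `S` of places with lower bounds `e Q` for the ramification indices, and `g₀` with
`2 g₀ - 2 ≤ -2 [F : K(x)] + Σ_{Q ∈ S} (e Q - 1)`, there is a divisor `E` with
`ℓ(E) + g₀ ≤ deg E + 1` (so the genus is at least `g₀`).  Wild ramification is allowed.
-/

set_option autoImplicit false
set_option linter.unusedSectionVars false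
set_option linter.unusedVariables false
set_option linter.style.haveILetI false
set_option linter.deprecated false

open AlgebraicCurve IntermediateField Polynomial Module
open Fermat.Agent.Lib.FF

namespace Fermat.Agent.Lib.FFs

variable {K F : Type*} [Field K] [Field F] [Algebra K F]
variable {x : F}

/-- the ramification index of `x` at `v` (`1` if it is not defined) -/
noncomputable def ramIdx (K : Type*) {F : Type*} [Field K] [Field F] [Algebra K F] (x : F)
    (v : Place K F) : ℤ :=
  letI := Classical.propDecidable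
  if h : ∃ a : K, 0 < v.ord (x - algebraMap K F a) then v.ord (x - algebraMap K F h.choose)
  else if v.ord x < 0 then - v.ord x else 1

theorem one_le_ramIdx (x : F) (v : Place K F) : 1 ≤ ramIdx K x v := by
  unfold ramIdx
  split_ifs with h h'
  · have := h.choose_spec
    omega
  · omega
  · exact le_rfl

theorem ramIdx_of_pos {v : Place K F} {a : K} (h : 0 < v.ord (x - algebraMap K F a)) :
    ramIdx K x v = v.ord (x - algebraMap K F a) := by
  have hex : ∃ a : K, 0 < v.ord (x - algebraMap K F a) := ⟨a, h⟩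
  unfold ramIdx
  rw [dif_pos hex]
  have := eq_of_ord_sub_pos v hex.choose_spec h
  rw [this]

theorem ramIdx_of_neg {v : Place K F} (h : v.ord x < 0) : ramIdx K x v = - v.ord x := by
  have hex : ¬ ∃ a : K, 0 < v.ord (x - algebraMap K F a) := by
    rintro ⟨a, ha⟩
    rw [ord_sub_algebraMap_of_neg v h a] at ha
    omega
  unfold ramIdx
  rw [dif_neg hex, if_pos h]

/-- the order of `dx` in the tame case -/
noncomputable def dxOrd (K : Type*) {F : Type*} [Field K] [Field F] [Algebra K F] (x : F)
    (v : Place K F) : ℤ :=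
  letI := Classical.propDecidable
  if v.ord x < 0 then - ramIdx K x v - 1 else ramIdx K x v - 1

theorem dxOrd_of_neg {v : Place K F} (h : v.ord x < 0) : dxOrd K x v = v.ord x - 1 := by
  unfold dxOrd
  rw [if_pos h, ramIdx_of_neg h]
  ring

theorem dxOrd_of_nonneg {v : Place K F} (h : 0 ≤ v.ord x) : dxOrd K x v = ramIdx K x v - 1 := by
  unfold dxOrd
  rw [if_neg (by omega)]

section Main

variable [IsAlgClosed K]

/-- the main inequality, for a reduced basis -/
theorem exists_divisor_of_ramification_aux (hx : IsFF1s K F x)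
    {ι : Type*} [Fintype ι] [DecidableEq ι] (b : Basis ι K⟮x⟯ F) (d : ι → ℕ)
    (hred : IsReducedBasis K x b d)
    (S : Finset (Place K F)) (e : Place K F → ℤ)
    (he : ∀ Q ∈ S, e Q ≤ -Q.ord x ∨ ∃ a : K, e Q ≤ Q.ord (x - algebraMap K F a))
    (g₀ : ℤ) (hg : 2 * g₀ - 2 ≤ -2 * (Module.finrank K⟮x⟯ F : ℤ) + ∑ Q ∈ S, (e Q - 1)) :
    ∃ E : Divisor K F,
      (Module.finrank K (riemannRochSpace E) : ℤ) + g₀ ≤ Divisor.degree E + 1 := by
  classical
  haveI := hx.finite
  haveI := hx.separable
  have hpf := pf0_of_isFF1s hx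
  have hpfs := pfs_of_isFF1s hx
  set n : ℤ := (Module.finrank K⟮x⟯ F : ℤ) with hn
  have hnrank : Module.finrank K⟮x⟯ F = Fintype.card ι := Module.finrank_eq_card_basis b
  have hcard : (∑ _i : ι, (1 : ℤ)) = n := by simp [hn, hnrank]
  set M : ℕ := ∑ i, d i with hM
  have hMcast : ((M : ℕ) : ℤ) = ∑ i, (d i : ℤ) := by rw [hM]; push_cast; rfl
  set P := hpf.poleDiv x with hP
  have hdegP : Divisor.degree P = n := degree_poleDiv_of_isFF1s hpf hx
  set T : Finset (Place K F) := S ∪ hpfs.pol hx with hT
  set W : Divisor K F := ∑ v ∈ T, Finsupp.single v (dxOrd K x v) with hW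
  have hWapp : ∀ v, W v = if v ∈ T then dxOrd K x v else 0 := by
    intro v
    rw [hW, Finsupp.finset_sum_apply]
    simp only [Finsupp.single_apply]
    rw [Finset.sum_ite_eq' T v]
  have hdegW : Divisor.degree W = ∑ v ∈ T, dxOrd K x v := by
    rw [hW, map_sum]
    exact Finset.sum_congr rfl fun v _ => hpf.degree_single v _
  -- the two divisors
  set E₁ : Divisor K F := W + ((M : ℤ) + 2) • P with hE₁
  set E₂ : Divisor K F := (M : ℤ) • P with hE₂
  -- `L(E₁)` lies in the coordinate space of the trace dual basis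
  have hsub : riemannRochSpace E₁ ≤ coordSpace b.traceDual (fun i => (M : ℤ) + d i) := by
    intro f hf
    rw [mem_rrSpace_iff] at hf
    refine mem_coordSpace_traceDual_of hx hred (M : ℤ) ?_ ?_
    · intro v a hva
      rcases hf v with h0 | h1
      · exact Or.inl h0
      right
      have hv : 0 ≤ v.ord x := ord_nonneg_of_ord_sub_pos hva
      rw [hE₁, Finsupp.add_apply, Finsupp.smul_apply, hP, hpf.poleDiv_of_nonneg hv, smul_zero,
        add_zero, hWapp] at h1
      have h2 := one_le_ramIdx (K := K) x v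
      rw [← ramIdx_of_pos hva]
      split_ifs at h1 with hmem
      · rw [dxOrd_of_nonneg hv] at h1
        omega
      · omega
    · intro v hv
      rcases hf v with h0 | h1
      · exact Or.inl h0
      right
      have hmem : v ∈ T := Finset.mem_union_right _ ((hpfs.mem_pol hx).mpr hv)
      rw [hE₁, Finsupp.add_apply, Finsupp.smul_apply, hP, hpf.poleDiv_of_neg hv, smul_eq_mul,
        hWapp, if_pos hmem, dxOrd_of_neg hv] at h1
      linarith
  haveI hfinC : Module.Finite K (coordSpace b.traceDual (fun i => (M : ℤ) + d i)) :=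
    finite_coordSpace _ _ hpf hx.toFF1
  have hl1 : (Module.finrank K (riemannRochSpace E₁) : ℤ) ≤ n * (M + 1) + M := by
    have h1 := Submodule.finrank_mono hsub
    rw [finrank_coordSpace _ _ hpf hx.toFF1] at h1
    have h2 : ((∑ i, ((M : ℤ) + d i + 1).toNat : ℕ) : ℤ) = n * (M + 1) + M := by
      rw [sum_toNat_cast _ (fun i => by positivity)]
      have h3 : ∑ i : ι, ((M : ℤ) + d i + 1)
          = ((M : ℤ) + 1) * ∑ _i : ι, (1 : ℤ) + ∑ i, (d i : ℤ) := by
        rw [Finset.mul_sum, ← Finset.sum_add_distrib]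
        exact Finset.sum_congr rfl fun i _ => by ring
      rw [h3, hcard, ← hMcast]
      ring
    have h4 : (Module.finrank K (riemannRochSpace E₁) : ℤ)
        ≤ ((∑ i, ((M : ℤ) + d i + 1).toNat : ℕ) : ℤ) := by exact_mod_cast h1
    rw [h2] at h4
    exact h4
  have hl2 : (Module.finrank K (riemannRochSpace E₂) : ℤ) = n * (M + 1) - M := by
    rw [hE₂, hP, finrank_rrSpace_smul_poleDiv hpf hx.toFF1 hred M le_rfl]
  -- degrees
  have hd1 : Divisor.degree E₁ = Divisor.degree W + ((M : ℤ) + 2) * n := by
    rw [hE₁, map_add, map_zsmul, hdegP, smul_eq_mul]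
  have hd2 : Divisor.degree E₂ = (M : ℤ) * n := by
    rw [hE₂, map_zsmul, hdegP, smul_eq_mul]
  -- the degree of `W`
  have hramS : ∀ Q ∈ S, e Q - 1 ≤ ramIdx K x Q - 1 := by
    intro Q hQ
    have h1 := one_le_ramIdx (K := K) x Q
    rcases he Q hQ with h | ⟨a, h⟩
    · by_cases hneg : Q.ord x < 0
      · rw [ramIdx_of_neg hneg]
        omega
      · omega
    · by_cases hpos : 0 < Q.ord (x - algebraMap K F a)
      · rw [ramIdx_of_pos hpos]
        omega
      · omega
  have hsum1 : ∑ Q ∈ S, (e Q - 1) ≤ ∑ v ∈ T, (ramIdx K x v - 1) := by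
    refine (Finset.sum_le_sum hramS).trans ?_
    refine Finset.sum_le_sum_of_subset_of_nonneg Finset.subset_union_left ?_
    intro v _ _
    have := one_le_ramIdx (K := K) x v
    omega
  have hsum2 : ∑ v ∈ T, dxOrd K x v = ∑ v ∈ T, (ramIdx K x v - 1) - 2 * n := by
    have h1 : ∀ v ∈ T, dxOrd K x v
        = (ramIdx K x v - 1) + (if v ∈ hpfs.pol hx then 2 * v.ord x else 0) := by
      intro v _
      by_cases hv : v.ord x < 0
      · rw [if_pos ((hpfs.mem_pol hx).mpr hv), dxOrd_of_neg hv, ramIdx_of_neg hv]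
        ring
      · rw [if_neg (fun h => hv ((hpfs.mem_pol hx).mp h)), dxOrd_of_nonneg (by omega)]
        ring
    rw [Finset.sum_congr rfl h1, Finset.sum_add_distrib, ← Finset.sum_filter]
    have h2 : T.filter (fun v => v ∈ hpfs.pol hx) = hpfs.pol hx := by
      ext v
      rw [Finset.mem_filter]
      constructor
      · exact fun h => h.2
      · exact fun h => ⟨Finset.mem_union_right _ h, h⟩
    rw [h2, ← Finset.mul_sum, hpfs.sum_pol hx]
    ring
  have hdW : 2 * g₀ - 2 ≤ Divisor.degree W := by
    rw [hdegW, hsum2]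
    linarith
  -- conclusion
  by_cases hc : (Module.finrank K (riemannRochSpace E₁) : ℤ) + g₀ ≤ Divisor.degree E₁ + 1
  · exact ⟨E₁, hc⟩
  · refine ⟨E₂, ?_⟩
    push Not at hc
    rw [hl2, hd2]
    rw [hd1] at hc
    nlinarith

/-- **D4. The Riemann–Hurwitz inequality**: a lower bound for the genus from lower bounds for
the ramification indices of a separating element. -/
theorem exists_divisor_of_ramification (hx : IsFF1s K F x)
    (S : Finset (Place K F)) (e : Place K F → ℤ)
    (he : ∀ Q ∈ S, e Q ≤ -Q.ord x ∨ ∃ a : K, e Q ≤ Q.ord (x - algebraMap K F a))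
    (g₀ : ℤ) (hg : 2 * g₀ - 2 ≤ -2 * (Module.finrank K⟮x⟯ F : ℤ) + ∑ Q ∈ S, (e Q - 1)) :
    ∃ E : Divisor K F,
      (Module.finrank K (riemannRochSpace E) : ℤ) + g₀ ≤ Divisor.degree E + 1 := by
  classical
  obtain ⟨b, d, hred⟩ := exists_reducedBasis (pf0_of_isFF1s hx) hx.toFF1
  exact exists_divisor_of_ramification_aux hx b d hred S e he g₀ hg

end Main

end Fermat.Agent.Lib.FFs
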