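import Fermat.Agent.Lib.FFs.Facts
import Fermat.Agent.Lib.FunctionField.RRSpace

/-!
# Function fields in any characteristic, part 3: the spaces `L(D)` from weak place facts

`PF0 K F`: all residue fields are `K`, every nonzero function has finitely many zeros and poles,
and functions without poles are constant.  From this we get the one-step lemma, the finiteness of
`L(D)` and `ℓ(D') - ℓ(D) ≤ deg D' - deg D` (port of `RRSpace.lean`, without using that principal
divisors have degree zero).
-/

set_option autoImplicit false
set_option linter.unusedSectionVars false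
set_option linter.style.haveILetI false
set_option linter.deprecated false

open AlgebraicCurve IntermediateField
open Fermat.Agent.Lib.FF

namespace Fermat.Agent.Lib.FFs

variable {K F : Type*} [Field K] [Field F] [Algebra K F]

/-- weak place facts -/
structure PF0 (K F : Type*) [Field K] [Field F] [Algebra K F] : Prop where
  res : ∀ v : Place K F, Function.Surjective (algebraMap K v.ResidueField)
  finite_ord_ne_zero : ∀ f : F, f ≠ 0 → {v : Place K F | v.ord f ≠ 0}.Finite
  const : ∀ f : F, (∀ v : Place K F, 0 ≤ v.ord f) → ∃ c : K, f = algebraMap K F c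

/-- the divisor of a function (zero for the zero function) -/
noncomputable def PF0.divOf (hpf : PF0 K F) (f : F) : Divisor K F :=
  letI := Classical.propDecidable
  if hf : f = 0 then 0
  else Finsupp.ofSupportFinite (fun v => v.ord f) (hpf.finite_ord_ne_zero f hf)

theorem PF0.divOf_apply (hpf : PF0 K F) (f : F) (v : Place K F) :
    hpf.divOf f v = v.ord f := by
  unfold PF0.divOf
  by_cases hf : f = 0
  · simp [hf]
  · simp only [hf, dite_false]
    rfl

theorem PF0.degree_single (hpf : PF0 K F) (P : Place K F) (n : ℤ) :
    Divisor.degree (Finsupp.single P n) = n := by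
  rw [Divisor.degree_single, deg_eq_one_of_res P (hpf.res P)]
  simp

section OneStep

variable (hpf : PF0 K F)
include hpf

/-- the one-step lemma: `L(D + P) / L(D)` has dimension at most one -/
theorem exists_sub_smul_mem_rrSpace (D : Divisor K F) (P : Place K F) {f g : F}
    (hf : f ∈ riemannRochSpace (D + Finsupp.single P 1))
    (hg : g ∈ riemannRochSpace (D + Finsupp.single P 1)) (hgD : g ∉ riemannRochSpace D) :
    ∃ c : K, f - c • g ∈ riemannRochSpace D := by
  obtain ⟨hg0, hgP⟩ := ord_eq_of_mem_of_notMem hg hgD
  by_cases hf0 : f = 0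
  · exact ⟨0, by simp [hf0]⟩
  have hfP : - D P - 1 ≤ P.ord f := by
    have := (mem_rrSpace_iff_of_ne_zero hf0).mp hf P
    rw [Finsupp.add_apply, Finsupp.single_eq_same] at this
    omega
  have hu : 0 ≤ P.ord (f / g) := by
    rw [div_eq_mul_inv, P.ord_mul hf0 (inv_ne_zero hg0), P.ord_inv]
    omega
  obtain ⟨c, hc⟩ := exists_eq_or_ord_sub_pos P (hpf.res P) (f / g) hu
  refine ⟨c, ?_⟩
  have hkey : f - c • g = (f / g - algebraMap K F c) * g := by
    rw [Algebra.smul_def]
    field_simp
  rcases hc with hc | hc
  · rw [hkey, hc, sub_self, zero_mul]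
    exact Submodule.zero_mem _
  · by_cases h0 : f - c • g = 0
    · rw [h0]
      exact Submodule.zero_mem _
    rw [mem_rrSpace_iff_of_ne_zero h0]
    intro v
    by_cases hv : v = P
    · subst hv
      have hne : f / g - algebraMap K F c ≠ 0 := by
        intro h
        rw [hkey, h, zero_mul] at h0
        exact h0 rfl
      rw [hkey, v.ord_mul hne hg0]
      omega
    · have h1 : f - c • g ∈ riemannRochSpace (D + Finsupp.single P 1) :=
        Submodule.sub_mem _ hf (Submodule.smul_mem _ c hg)
      have := (mem_rrSpace_iff_of_ne_zero h0).mp h1 v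
      rw [Finsupp.add_apply, Finsupp.single_eq_of_ne hv, add_zero] at this
      exact this

theorem rrSpace_add_single_le (D : Divisor K F) (P : Place K F) {g : F}
    (hg : g ∈ riemannRochSpace (D + Finsupp.single P 1)) (hgD : g ∉ riemannRochSpace D) :
    riemannRochSpace (D + Finsupp.single P 1) ≤ riemannRochSpace D ⊔ Submodule.span K {g} := by
  intro f hf
  obtain ⟨c, hc⟩ := exists_sub_smul_mem_rrSpace hpf D P hf hg hgD
  rw [Submodule.mem_sup]
  refine ⟨f - c • g, hc, c • g, Submodule.smul_mem _ c (Submodule.mem_span_singleton_self g), ?_⟩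
  ring

theorem finite_rrSpace_add_single (D : Divisor K F) (P : Place K F)
    (h : Module.Finite K (riemannRochSpace D)) :
    Module.Finite K (riemannRochSpace (D + Finsupp.single P 1)) := by
  by_cases hle : riemannRochSpace (D + Finsupp.single P 1) ≤ riemannRochSpace D
  · exact Submodule.finiteDimensional_of_le hle
  · obtain ⟨g, hg, hgD⟩ := Set.not_subset.mp hle
    haveI : Module.Finite K (riemannRochSpace D ⊔ Submodule.span K {g} : Submodule K F) :=
      Submodule.finiteDimensional_sup _ _
    exact Submodule.finiteDimensional_of_le (rrSpace_add_single_le hpf D P hg hgD)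

theorem finrank_rrSpace_add_single_le (D : Divisor K F) (P : Place K F)
    (h : Module.Finite K (riemannRochSpace D)) :
    Module.finrank K (riemannRochSpace (D + Finsupp.single P 1))
      ≤ Module.finrank K (riemannRochSpace D) + 1 := by
  by_cases hle : riemannRochSpace (D + Finsupp.single P 1) ≤ riemannRochSpace D
  · exact (Submodule.finrank_mono hle).trans (Nat.le_succ _)
  · obtain ⟨g, hg, hgD⟩ := Set.not_subset.mp hle
    haveI : Module.Finite K (riemannRochSpace D ⊔ Submodule.span K {g} : Submodule K F) :=
      Submodule.finiteDimensional_sup _ _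
    refine (Submodule.finrank_mono (rrSpace_add_single_le hpf D P hg hgD)).trans ?_
    refine (Submodule.finrank_add_le_finrank_add_finrank _ _).trans ?_
    have : Module.finrank K (Submodule.span K {g}) ≤ 1 := by
      have := finrank_span_le_card (R := K) ({g} : Set F)
      simpa using this
    omega

/-- the jump is exactly one if `L(D + P) ≠ L(D)` -/
theorem finrank_rrSpace_add_single_eq (D : Divisor K F) (P : Place K F)
    (h : Module.Finite K (riemannRochSpace D)) {g : F}
    (hg : g ∈ riemannRochSpace (D + Finsupp.single P 1)) (hgD : g ∉ riemannRochSpace D) :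
    Module.finrank K (riemannRochSpace (D + Finsupp.single P 1))
      = Module.finrank K (riemannRochSpace D) + 1 := by
  refine le_antisymm (finrank_rrSpace_add_single_le hpf D P h) ?_
  haveI := finite_rrSpace_add_single hpf D P h
  have hlt : riemannRochSpace D < riemannRochSpace (D + Finsupp.single P 1) :=
    lt_of_le_of_ne (rrSpace_mono (le_add_single D P)) (fun heq => hgD (heq ▸ hg))
  exact Submodule.finrank_lt_finrank_of_lt hlt

/-- effective divisors have nonnegative degree -/
theorem degree_nonneg_of_nonneg {E : Divisor K F} (hE : 0 ≤ E) : 0 ≤ Divisor.degree E := by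
  rw [degree_eq_sum_of_res hpf.res E E.support (le_refl _)]
  exact Finset.sum_nonneg fun v _ => Finsupp.le_def.mp hE v

theorem degree_mono {D D' : Divisor K F} (h : D ≤ D') :
    Divisor.degree D ≤ Divisor.degree D' := by
  have h1 : 0 ≤ D' - D := by
    rw [Finsupp.le_def]
    intro v
    have := Finsupp.le_def.mp h v
    simp only [Finsupp.coe_zero, Pi.zero_apply, Finsupp.coe_sub, Pi.sub_apply]
    omega
  have h2 := degree_nonneg_of_nonneg hpf h1
  rw [map_sub] at h2
  omega

/-- induction principle: reach every `D' ≥ D` from `D` by adding one place at a time -/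
theorem divisor_induction {p : Divisor K F → Prop} (D : Divisor K F) (h0 : p D)
    (hstep : ∀ (D' : Divisor K F) (P : Place K F), D ≤ D' → p D' → p (D' + Finsupp.single P 1)) :
    ∀ D' : Divisor K F, D ≤ D' → p D' := by
  have key : ∀ (m : ℕ) (D' : Divisor K F), D ≤ D' →
      Divisor.degree D' - Divisor.degree D = m → p D' := by
    intro m
    induction m with
    | zero =>
      intro D' hle hdeg
      have hEq : D' = D := by
        by_contra hne
        have : ∃ P, D P < D' P := by
          by_contra hcon
          push Not at hcon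
          apply hne
          ext v
          exact le_antisymm (hcon v) (Finsupp.le_def.mp hle v)
        obtain ⟨P, hP⟩ := this
        have h1 : D + Finsupp.single P 1 ≤ D' := by
          rw [Finsupp.le_def]
          intro v
          rw [Finsupp.add_apply]
          by_cases hv : v = P
          · subst hv
            rw [Finsupp.single_eq_same]
            omega
          · rw [Finsupp.single_eq_of_ne hv, add_zero]
            exact Finsupp.le_def.mp hle v
        have h2 := degree_mono hpf h1
        rw [map_add, hpf.degree_single] at h2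
        simp only [Nat.cast_zero] at hdeg
        omega
      rw [hEq]
      exact h0
    | succ m ih =>
      intro D' hle hdeg
      have : ∃ P, D P < D' P := by
        by_contra hcon
        push Not at hcon
        have hEq : D' = D := by
          ext v
          exact le_antisymm (hcon v) (Finsupp.le_def.mp hle v)
        rw [hEq] at hdeg
        push_cast at hdeg
        omega
      obtain ⟨P, hP⟩ := this
      have h1 : D ≤ D' - Finsupp.single P 1 := by
        rw [Finsupp.le_def]
        intro v
        rw [Finsupp.sub_apply]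
        by_cases hv : v = P
        · subst hv
          rw [Finsupp.single_eq_same]
          omega
        · rw [Finsupp.single_eq_of_ne hv, sub_zero]
          exact Finsupp.le_def.mp hle v
      have h2 : Divisor.degree (D' - Finsupp.single P 1) - Divisor.degree D = m := by
        rw [map_sub, hpf.degree_single]
        push_cast at hdeg
        omega
      have h3 := hstep _ P h1 (ih _ h1 h2)
      rwa [sub_add_cancel] at h3
  intro D' hle
  have hnn : 0 ≤ Divisor.degree D' - Divisor.degree D := by
    have := degree_mono hpf hle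
    omega
  obtain ⟨m, hm⟩ := Int.eq_ofNat_of_zero_le hnn
  exact key m D' hle hm

/-- `L(E) = 0` if `E ≤ 0` and `E` is negative somewhere -/
theorem rrSpace_eq_bot_of_nonpos {E : Divisor K F} (hE : E ≤ 0) (P₀ : Place K F)
    (hP : E P₀ < 0) : riemannRochSpace E = ⊥ := by
  rw [Submodule.eq_bot_iff]
  intro f hf
  by_contra hf0
  have h1 := (mem_rrSpace_iff_of_ne_zero hf0).mp hf
  obtain ⟨c, hc⟩ := hpf.const f (fun v => by
    have := h1 v
    have h2 := Finsupp.le_def.mp hE v
    simp only [Finsupp.coe_zero, Pi.zero_apply] at h2
    omega)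
  have h3 := h1 P₀
  rw [hc, ord_algebraMap] at h3
  omega

/-- `L(D)` is finite-dimensional -/
theorem finite_rrSpace (P₀ : Place K F) (D : Divisor K F) :
    Module.Finite K (riemannRochSpace D) := by
  set D₀ : Divisor K F := D.mapRange (fun n : ℤ => min n 0) (by simp) - Finsupp.single P₀ 1
    with hD₀
  have hle : D₀ ≤ D := by
    rw [Finsupp.le_def]
    intro v
    rw [hD₀, Finsupp.sub_apply, Finsupp.mapRange_apply]
    by_cases hv : v = P₀
    · subst hv
      rw [Finsupp.single_eq_same]
      have := min_le_left (D v) 0
      omega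
    · rw [Finsupp.single_eq_of_ne hv, sub_zero]
      exact min_le_left _ _
  have h0 : D₀ ≤ 0 := by
    rw [Finsupp.le_def]
    intro v
    rw [hD₀, Finsupp.sub_apply, Finsupp.mapRange_apply]
    simp only [Finsupp.coe_zero, Pi.zero_apply]
    by_cases hv : v = P₀
    · subst hv
      rw [Finsupp.single_eq_same]
      have := min_le_right (D v) 0
      omega
    · rw [Finsupp.single_eq_of_ne hv, sub_zero]
      exact min_le_right _ _
  have hP : D₀ P₀ < 0 := by
    rw [hD₀, Finsupp.sub_apply, Finsupp.mapRange_apply, Finsupp.single_eq_same]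
    have := min_le_right (D P₀) 0
    omega
  refine divisor_induction hpf (p := fun E => Module.Finite K (riemannRochSpace E)) D₀ ?_
    (fun D' P _ h => finite_rrSpace_add_single hpf D' P h) D hle
  rw [rrSpace_eq_bot_of_nonpos hpf h0 P₀ hP]
  infer_instance

/-- `ℓ(D') - ℓ(D) ≤ deg D' - deg D` for `D ≤ D'` -/
theorem finrank_rrSpace_sub_le (P₀ : Place K F) {D D' : Divisor K F} (h : D ≤ D') :
    (Module.finrank K (riemannRochSpace D') : ℤ) - Module.finrank K (riemannRochSpace D)
      ≤ Divisor.degree D' - Divisor.degree D := by
  refine divisor_induction hpf (p := fun E =>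
    (Module.finrank K (riemannRochSpace E) : ℤ) - Module.finrank K (riemannRochSpace D)
      ≤ Divisor.degree E - Divisor.degree D) D (by simp) ?_ D' h
  intro E P _ hE
  have h1 := finrank_rrSpace_add_single_le hpf E P (finite_rrSpace hpf P₀ E)
  rw [map_add, hpf.degree_single]
  omega

/-- `f ∈ L(D + div z) ↔ z * f ∈ L(D)` -/
theorem mem_rrSpace_add_divOf {z : F} (hz : z ≠ 0) (D : Divisor K F) (f : F) :
    f ∈ riemannRochSpace (D + hpf.divOf z) ↔ z * f ∈ riemannRochSpace D := by
  by_cases hf : f = 0
  · simp [hf]
  rw [mem_rrSpace_iff_of_ne_zero hf, mem_rrSpace_iff_of_ne_zero (mul_ne_zero hz hf)]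
  refine forall_congr' fun v => ?_
  rw [Finsupp.add_apply, hpf.divOf_apply, v.ord_mul hz hf]
  constructor <;> intro h <;> omega

/-- multiplication by `z` as a linear equivalence `L(D + div z) ≃ L(D)` -/
noncomputable def rrSpaceMulEquiv {z : F} (hz : z ≠ 0) (D : Divisor K F) :
    riemannRochSpace (D + hpf.divOf z) ≃ₗ[K] riemannRochSpace D where
  toFun f := ⟨z * f.1, (mem_rrSpace_add_divOf hpf hz D f.1).mp f.2⟩
  invFun g := ⟨z⁻¹ * g.1, (mem_rrSpace_add_divOf hpf hz D _).mpr (by
    rw [← mul_assoc, mul_inv_cancel₀ hz, one_mul]
    exact g.2)⟩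
  map_add' f g := by
    apply Subtype.ext
    simp [mul_add]
  map_smul' c f := by
    apply Subtype.ext
    simp
  left_inv f := by
    apply Subtype.ext
    simp [← mul_assoc, inv_mul_cancel₀ hz]
  right_inv g := by
    apply Subtype.ext
    simp [← mul_assoc, mul_inv_cancel₀ hz]

theorem finrank_rrSpace_add_divOf {z : F} (hz : z ≠ 0) (D : Divisor K F) :
    Module.finrank K (riemannRochSpace (D + hpf.divOf z))
      = Module.finrank K (riemannRochSpace D) :=
  (rrSpaceMulEquiv hpf hz D).finrank_eq

/-- `L(0) = K` -/
theorem mem_rrSpace_zero_iff (f : F) :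
    f ∈ riemannRochSpace (0 : Divisor K F) ↔ ∃ c : K, algebraMap K F c = f := by
  constructor
  · intro hf
    by_cases hf0 : f = 0
    · exact ⟨0, by rw [hf0, map_zero]⟩
    obtain ⟨c, hc⟩ := hpf.const f (fun v => by
      have := (mem_rrSpace_iff_of_ne_zero hf0).mp hf v
      simpa using this)
    exact ⟨c, hc.symm⟩
  · rintro ⟨c, rfl⟩
    rw [mem_rrSpace_iff]
    intro v
    right
    rw [ord_algebraMap]
    simp

theorem finrank_rrSpace_zero :
    Module.finrank K (riemannRochSpace (0 : Divisor K F)) = 1 := by
  have h : riemannRochSpace (0 : Divisor K F) = Submodule.span K {(1 : F)} := by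
    ext f
    rw [mem_rrSpace_zero_iff hpf, Submodule.mem_span_singleton]
    constructor
    · rintro ⟨c, rfl⟩
      exact ⟨c, by rw [Algebra.smul_def, mul_one]⟩
    · rintro ⟨c, rfl⟩
      exact ⟨c, by rw [Algebra.smul_def, mul_one]⟩
  rw [h]
  exact finrank_span_singleton one_ne_zero

/-- `ℓ(D) ≤ deg D + 1` for effective `D` -/
theorem finrank_rrSpace_le_of_nonneg (P₀ : Place K F) {D : Divisor K F} (hD : 0 ≤ D) :
    (Module.finrank K (riemannRochSpace D) : ℤ) ≤ Divisor.degree D + 1 := by
  have h1 := finrank_rrSpace_sub_le hpf P₀ hD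
  rw [finrank_rrSpace_zero hpf, map_zero] at h1
  push_cast at h1
  omega

end OneStep

end Fermat.Agent.Lib.FFs
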