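import Fermat.Agent.Lib.FFs.RH

/-!
# Function fields in any characteristic, part 14: Riemann's theorem

For a separating element `x` and a reduced basis `(b, d)` of `F/K(x)`, with `n = [F : K(x)]`,
`M = Σ d`: `ℓ(E) ≥ deg E + n - M` for all `E`, with equality if `deg E ≥ M n + M - n + 1`.
So `g = M - n + 1` is the genus (in Riemann's sense).
-/

set_option autoImplicit false
set_option linter.unusedSectionVars false
set_option linter.unusedVariables false
set_option linter.style.haveILetI false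
set_option linter.deprecated false

open AlgebraicCurve IntermediateField Polynomial Module
open Fermat.Agent.Lib.FF

namespace Fermat.Agent.Lib.FFs

variable {K F : Type*} [Field K] [Field F] [Algebra K F] [IsAlgClosed K]
variable {x : F}

/-- **Riemann's theorem** (equality for large degree), in terms of a reduced basis -/
theorem riemann_eq_aux (hx : IsFF1s K F x) {ι : Type*} [Fintype ι]
    {b : Basis ι K⟮x⟯ F} {d : ι → ℕ} (h : IsReducedBasis K x b d) (E : Divisor K F)
    (hE : ((∑ i, d i : ℕ) : ℤ) * (Module.finrank K⟮x⟯ F : ℤ) + ((∑ i, d i : ℕ) : ℤ)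
      - (Module.finrank K⟮x⟯ F : ℤ) + 1 ≤ Divisor.degree E) :
    (Module.finrank K (riemannRochSpace E) : ℤ)
      = Divisor.degree E + (Module.finrank K⟮x⟯ F : ℤ) - ((∑ i, d i : ℕ) : ℤ) := by
  classical
  have hpf0 := pf0_of_isFF1s hx
  have hpf := placeFacts_of_isFF1s hx
  obtain ⟨P₀, -⟩ := exists_pole hpf0 hx.toFF1
  set n : ℤ := (Module.finrank K⟮x⟯ F : ℤ) with hn
  set M : ℕ := ∑ i, d i with hM
  set A₀ : Divisor K F := (M : ℤ) • hpf0.poleDiv x with hA₀
  have hlA₀ : (Module.finrank K (riemannRochSpace A₀) : ℤ) = n * (M + 1) - M :=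
    finrank_rrSpace_smul_poleDiv hpf0 hx.toFF1 h M le_rfl
  have hdA₀ : Divisor.degree A₀ = M * n := by
    rw [hA₀, map_zsmul, degree_poleDiv_of_isFF1s hpf0 hx, smul_eq_mul]
  apply le_antisymm
  · -- `ℓ(E) ≤ deg E + n - M`
    have h1 := riemann_aux hpf0 hx h (E - A₀)
    rw [map_sub, hdA₀] at h1
    have hpos : 0 < Module.finrank K (riemannRochSpace (E - A₀)) := by
      have : (0 : ℤ) < (Module.finrank K (riemannRochSpace (E - A₀)) : ℤ) := by linarith
      exact_mod_cast this
    haveI := Fermat.Agent.Lib.FF.finite_rrSpace hpf P₀ (E - A₀)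
    obtain ⟨⟨z, hz⟩, hz0⟩ := Module.finrank_pos_iff_exists_ne_zero.mp hpos
    have hz0' : z ≠ 0 := fun h0 => hz0 (Subtype.ext h0)
    have hle : A₀ ≤ E + hpf.divOf z := by
      rw [Finsupp.le_def]
      intro v
      have := (mem_rrSpace_iff_of_ne_zero hz0').mp hz v
      rw [Finsupp.sub_apply] at this
      rw [Finsupp.add_apply, hpf.divOf_apply]
      omega
    have h2 := Fermat.Agent.Lib.FF.finrank_rrSpace_sub_le hpf P₀ hle
    rw [Fermat.Agent.Lib.FF.finrank_rrSpace_add_divOf hpf hz0', map_add, hpf.degree_divOf,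
      add_zero, hlA₀, hdA₀] at h2
    linarith
  · exact riemann_aux hpf0 hx h E

/-- the genus in Riemann's sense is nonnegative -/
theorem riemann_genus_nonneg (hx : IsFF1s K F x) {ι : Type*} [Fintype ι]
    {b : Basis ι K⟮x⟯ F} {d : ι → ℕ} (h : IsReducedBasis K x b d) :
    (Module.finrank K⟮x⟯ F : ℤ) ≤ ((∑ i, d i : ℕ) : ℤ) + 1 := by
  have hpf0 := pf0_of_isFF1s hx
  have h1 := riemann_aux hpf0 hx h 0
  rw [finrank_rrSpace_zero hpf0, map_zero] at h1
  push_cast at h1 ⊢
  linarith

/-- **Riemann's theorem**: there are `g` and `c` with `ℓ(E) + g ≥ deg E + 1` for all `E` and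
equality for `deg E ≥ c`. -/
theorem riemann_theorem (hx : IsFF1s K F x) :
    ∃ (g : ℕ) (c : ℤ),
      (∀ E : Divisor K F,
        Divisor.degree E + 1 ≤ (Module.finrank K (riemannRochSpace E) : ℤ) + g) ∧
      (∀ E : Divisor K F, c ≤ Divisor.degree E →
        (Module.finrank K (riemannRochSpace E) : ℤ) + g = Divisor.degree E + 1) := by
  classical
  obtain ⟨b, d, hred⟩ := exists_reducedBasis (pf0_of_isFF1s hx) hx.toFF1
  have hg := riemann_genus_nonneg hx hred
  obtain ⟨g, hg'⟩ : ∃ g : ℕ, (g : ℤ) = ((∑ i, d i : ℕ) : ℤ) - (Module.finrank K⟮x⟯ F : ℤ) + 1 :=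
    ⟨(((∑ i, d i : ℕ) : ℤ) - (Module.finrank K⟮x⟯ F : ℤ) + 1).toNat,
      Int.toNat_of_nonneg (by linarith)⟩
  refine ⟨g, ((∑ i, d i : ℕ) : ℤ) * (Module.finrank K⟮x⟯ F : ℤ) + ((∑ i, d i : ℕ) : ℤ)
      - (Module.finrank K⟮x⟯ F : ℤ) + 1, fun E => ?_, fun E hE => ?_⟩
  · have := riemann_aux (pf0_of_isFF1s hx) hx hred E
    linarith
  · have := riemann_eq_aux hx hred E hE
    linarith

/-- the genus in Riemann's theorem is unique -/
theorem riemann_genus_unique (hx : IsFF1s K F x) {g g' : ℕ} {c c' : ℤ}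
    (h1 : ∀ E : Divisor K F, c ≤ Divisor.degree E →
        (Module.finrank K (riemannRochSpace E) : ℤ) + g = Divisor.degree E + 1)
    (h2 : ∀ E : Divisor K F, c' ≤ Divisor.degree E →
        (Module.finrank K (riemannRochSpace E) : ℤ) + g' = Divisor.degree E + 1) : g = g' := by
  have hpf0 := pf0_of_isFF1s hx
  obtain ⟨P₀, -⟩ := exists_pole hpf0 hx.toFF1
  set E : Divisor K F := Finsupp.single P₀ (max c c') with hE
  have hdeg : Divisor.degree E = max c c' := hpf0.degree_single P₀ _
  have e1 := h1 E (by rw [hdeg]; exact le_max_left _ _)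
  have e2 := h2 E (by rw [hdeg]; exact le_max_right _ _)
  have : (g : ℤ) = g' := by linarith
  exact_mod_cast this

end Fermat.Agent.Lib.FFs
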