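import Fermat.Agent.Lib.FFs.RThm

/-!
# Function fields in any characteristic, part 15: finiteness of the ramification

A separating element is ramified at finitely many places only (from the Riemann–Hurwitz
inequality and Riemann's inequality).
-/

set_option autoImplicit false
set_option linter.unusedSectionVars false
set_option linter.unusedVariables false
set_option linter.style.haveILetI false
set_option linter.deprecated false

open AlgebraicCurve IntermediateField Polynomial Module
open Fermat.Agent.Lib.FF

namespace Fermat.Agent.Lib.FFs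

variable {K F : Type*} [Field K] [Field F] [Algebra K F] [IsAlgClosed K]
variable {x : F}

/-- the ramification index is attained -/
theorem ramIdx_le (hx : IsFF1s K F x) (Q : Place K F) :
    ramIdx K x Q ≤ -Q.ord x ∨ ∃ a : K, ramIdx K x Q ≤ Q.ord (x - algebraMap K F a) := by
  by_cases hQ : Q.ord x < 0
  · left
    rw [ramIdx_of_neg hQ]
  · right
    obtain ⟨a, ha⟩ := exists_ord_sub_pos hx.transcendental Q
      (algebraMap_residueField_surjective hx Q) (not_lt.mp hQ)
    exact ⟨a, by rw [ramIdx_of_pos ha]⟩

/-- a bound for the total ramification over any finite set of places -/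
theorem exists_sum_ramIdx_lt (hx : IsFF1s K F x) :
    ∃ B : ℤ, ∀ S : Finset (Place K F), ∑ Q ∈ S, (ramIdx K x Q - 1) < B := by
  obtain ⟨g, hg⟩ := riemann_inequality hx
  refine ⟨2 * g + 2 * (Module.finrank K⟮x⟯ F : ℤ) + 1, fun S => ?_⟩
  by_contra hcon
  push Not at hcon
  obtain ⟨E, hE⟩ := exists_divisor_of_ramification hx S (fun Q => ramIdx K x Q)
    (fun Q _ => ramIdx_le hx Q) (g + 1) (by linarith)
  have := hg E
  linarith

/-- **finiteness of the ramification** -/
theorem finite_ramified (hx : IsFF1s K F x) : {Q : Place K F | 2 ≤ ramIdx K x Q}.Finite := by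
  classical
  obtain ⟨B, hB⟩ := exists_sum_ramIdx_lt hx
  by_contra hinf
  have hinf' : {Q : Place K F | 2 ≤ ramIdx K x Q}.Infinite := hinf
  obtain ⟨t, ht, hcard⟩ := hinf'.exists_subset_card_eq B.toNat
  have h1 := hB t
  have h2 : (t.card : ℤ) ≤ ∑ Q ∈ t, (ramIdx K x Q - 1) := by
    have : ∑ _Q ∈ t, (1 : ℤ) ≤ ∑ Q ∈ t, (ramIdx K x Q - 1) := by
      refine Finset.sum_le_sum fun Q hQ => ?_
      have : 2 ≤ ramIdx K x Q := ht hQ
      omega
    simpa using this
  rw [hcard] at h2
  have h3 : B ≤ (B.toNat : ℤ) := Int.self_le_toNat B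
  linarith

end Fermat.Agent.Lib.FFs
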