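import Fermat.Agent.Lib.FFs.Rat
import Fermat.Agent.Lib.FunctionField.DWReduced

/-!
# Function fields in any characteristic, part 5: reduced bases

Port of `DWReduced.lean` to `PF0` (weak place facts), for any transcendental `x` with `F/K(x)`
finite.
-/

set_option autoImplicit false
set_option linter.unusedSectionVars false
set_option linter.unusedVariables false
set_option linter.style.haveILetI false
set_option linter.deprecated false

open AlgebraicCurve IntermediateField Polynomial Module
open Fermat.Agent.Lib.FF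

namespace Fermat.Agent.Lib.FFs

variable {K F : Type*} [Field K] [Field F] [Algebra K F]
variable {x : F}

section Exists

variable [IsAlgClosed K]

theorem aeval_mem_adjoin (x : F) (p : K[X]) : Polynomial.aeval x p ∈ K⟮x⟯ :=
  IntermediateField.algebra_adjoin_le_adjoin K {x} (Polynomial.aeval_mem_adjoin_singleton K x)

theorem exists_goodBasis (hpf : PF0 K F) (hx : IsFF1 K F x) :
    ∃ (b : Basis (Fin (Module.finrank K⟮x⟯ F)) K⟮x⟯ F) (d : Fin (Module.finrank K⟮x⟯ F) → ℕ),
      IsGoodBasis K x b d := by
  have := hx.finite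
  let b₀ := Module.finBasis K⟮x⟯ F
  choose q hq0 hq using fun i => exists_clear hpf hx (b₀ i)
  let w : Fin (Module.finrank K⟮x⟯ F) → K⟮x⟯ := fun i => ⟨Polynomial.aeval x (q i), aeval_mem_adjoin x _⟩
  have hw : ∀ i, IsUnit (w i) := fun i => by
    rw [isUnit_iff_ne_zero]
    intro h
    have := congrArg (fun c : K⟮x⟯ => (c : F)) h
    exact aeval_ne_zero_of_transcendental hx.transcendental _ (hq0 i) this
  let b := b₀.isUnitSMul hw
  have hb : ∀ i, b i = Polynomial.aeval x (q i) * b₀ i := fun i => by
    rw [Basis.isUnitSMul_apply, Algebra.smul_def]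
    rfl
  choose d hd using fun i => exists_degLE hpf hx (b i)
  exact ⟨b, d, fun i => by rw [hb]; exact hq i, hd⟩

theorem exists_reducedBasis (hpf : PF0 K F) (hx : IsFF1 K F x) :
    ∃ (b : Basis (Fin (Module.finrank K⟮x⟯ F)) K⟮x⟯ F) (d : Fin (Module.finrank K⟮x⟯ F) → ℕ),
      IsReducedBasis K x b d := by
  classical
  let P : ℕ → Prop := fun s =>
    ∃ (b : Basis (Fin (Module.finrank K⟮x⟯ F)) K⟮x⟯ F) (d : Fin (Module.finrank K⟮x⟯ F) → ℕ),
      IsGoodBasis K x b d ∧ ∑ i, d i = s
  have hP : ∃ s, P s := by
    obtain ⟨b, d, h⟩ := exists_goodBasis hpf hx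
    exact ⟨_, b, d, h, rfl⟩
  obtain ⟨b, d, hgood, hs⟩ := Nat.find_spec hP
  refine ⟨b, d, hgood, fun b' d' h' => ?_⟩
  rw [hs]
  exact Nat.find_min' hP ⟨b', d', h', rfl⟩

end Exists

section Reduced

variable [IsAlgClosed K]
variable {ι : Type*} [Fintype ι] {b : Basis ι K⟮x⟯ F} {d : ι → ℕ}

/-- (★) an element of small degree only involves basis vectors of small degree -/
theorem IsReducedBasis.le_of_repr_ne_zero (h : IsReducedBasis K x b d) {w : F}
    (hw : FinReg K x w) {k : ℕ} (hk : DegLE K x k w) {i : ι} (hi : b.repr w i ≠ 0) :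
    d i ≤ k := by
  classical
  by_contra hlt
  push Not at hlt
  have : Nonempty ι := ⟨i⟩
  have li : LinearIndependent K⟮x⟯ (Function.update b i w) :=
    b.linearIndependent.update i w ⟨1, one_mem _, b.repr w, mem_nonZeroDivisors_of_ne_zero hi,
      by rw [one_smul, b.linearCombination_repr]⟩
  let b' := basisOfLinearIndependentOfCardEqFinrank li (Module.finrank_eq_card_basis b).symm
  have hb' : ∀ j, b' j = Function.update b i w j := fun j => by
    rw [coe_basisOfLinearIndependentOfCardEqFinrank]
  have hgood : IsGoodBasis K x b' (Function.update d i k) := by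
    constructor
    · intro j
      rw [hb']
      by_cases hj : j = i
      · subst hj
        rw [Function.update_self]
        exact hw
      · rw [Function.update_of_ne hj]
        exact h.reg j
    · intro j
      rw [hb']
      by_cases hj : j = i
      · subst hj
        rw [Function.update_self, Function.update_self]
        exact hk
      · rw [Function.update_of_ne hj, Function.update_of_ne hj]
        exact h.deg j
  have hmin := h.min b' _ hgood
  have h1 : ∑ j, Function.update d i k j = k + ∑ j ∈ Finset.univ.erase i, d j := by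
    rw [← Finset.add_sum_erase _ _ (Finset.mem_univ i), Function.update_self]
    congr 1
    refine Finset.sum_congr rfl fun j hj => ?_
    rw [Function.update_of_ne (Finset.ne_of_mem_erase hj)]
  have h2 : ∑ j, d j = d i + ∑ j ∈ Finset.univ.erase i, d j :=
    (Finset.add_sum_erase _ _ (Finset.mem_univ i)).symm
  omega

/-- (b) the coordinates of a finitely regular element are polynomials -/
theorem IsReducedBasis.repr_poly (hpf : PF0 K F) (hx : IsFF1 K F x) (h : IsReducedBasis K x b d) {w : F}
    (hw : FinReg K x w) (i : ι) :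
    ∃ p : K[X], ((b.repr w i : K⟮x⟯) : F) = Polynomial.aeval x p := by
  classical
  choose s hs using fun j => exists_poly_sub_degLE hpf hx (b.repr w j).2
  -- the remainder
  let r : ι → F := fun j => ((b.repr w j : K⟮x⟯) : F) - Polynomial.aeval x (s j)
  have hrmem : ∀ j, r j ∈ K⟮x⟯ := fun j => sub_mem (b.repr w j).2 (aeval_mem_adjoin x _)
  let w' : F := ∑ j, r j * b j
  have hw'eq : w' = w - ∑ j, Polynomial.aeval x (s j) * b j := by
    conv_rhs => rw [sum_repr_mul b w]
    rw [← Finset.sum_sub_distrib]
    refine Finset.sum_congr rfl fun j _ => ?_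
    simp only [r]
    ring
  have hw'reg : FinReg K x w' := by
    rw [hw'eq]
    exact hw.sub (FinReg.sum _ _ fun j _ => (FinReg.aeval _).mul (h.reg j))
  have hrepr : ∀ j, ((b.repr w' j : K⟮x⟯) : F) = r j := repr_of_eq_sum b r hrmem w' rfl
  -- all remainders vanish
  have hr0 : ∀ j, r j = 0 := by
    by_contra hne
    push Not at hne
    have hJ : (Finset.univ.filter fun j => r j ≠ 0).Nonempty := by
      obtain ⟨j, hj⟩ := hne
      exact ⟨j, by simp [hj]⟩
    obtain ⟨j₁, hj₁, hmax⟩ := Finset.exists_max_image _ d hJ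
    have hj₁' : r j₁ ≠ 0 := (Finset.mem_filter.mp hj₁).2
    have hdeg : DegLE K x ((d j₁ : ℤ) - 1) w' := by
      refine DegLE.sum _ _ fun j _ => ?_
      by_cases hj : r j = 0
      · rw [hj, zero_mul]; exact DegLE.zero
      · have h1 := (hs j).mul (h.deg j)
        have h2 : d j ≤ d j₁ := hmax j (by simp [hj])
        exact h1.mono (by omega)
    have hreprne : b.repr w' j₁ ≠ 0 := by
      intro h0
      apply hj₁'
      rw [← hrepr, h0]
      rfl
    by_cases hd0 : d j₁ = 0
    · have hw'0 : w' = 0 := by
        apply eq_zero_of_finReg_of_degLE_neg hpf hx (k := -1) (by norm_num) hw'reg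
        rw [hd0] at hdeg
        simpa using hdeg
      apply hreprne
      rw [hw'0, map_zero]
      rfl
    · have hk : DegLE K x ((d j₁ - 1 : ℕ) : ℤ) w' := by
        have : ((d j₁ - 1 : ℕ) : ℤ) = (d j₁ : ℤ) - 1 := by omega
        rwa [this]
      have := IsReducedBasis.le_of_repr_ne_zero h hw'reg hk hreprne
      omega
  refine ⟨s i, ?_⟩
  have := hr0 i
  simp only [r] at this
  exact sub_eq_zero.mp this

/-- the leading forms are nondegenerate -/
theorem IsReducedBasis.not_degLE_leading (hpf : PF0 K F) (hx : IsFF1 K F x) (h : IsReducedBasis K x b d)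
    (a : ι → K) (ha : ∃ j, a j ≠ 0) (M : ℤ) :
    ¬ DegLE K x (M - 1) (∑ j, (algebraMap K F (a j) * x ^ (M - d j)) * b j) := by
  classical
  intro hdeg
  have hx0 : x ≠ 0 := by
    rintro rfl
    exact hx.transcendental isAlgebraic_zero
  have hJ : (Finset.univ.filter fun j => a j ≠ 0).Nonempty := by
    obtain ⟨j, hj⟩ := ha
    exact ⟨j, by simp [hj]⟩
  obtain ⟨j₁, hj₁, hmax⟩ := Finset.exists_max_image _ d hJ
  have hj₁' : a j₁ ≠ 0 := (Finset.mem_filter.mp hj₁).2
  set g := ∑ j, (algebraMap K F (a j) * x ^ (M - d j)) * b j with hg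
  -- rescale
  let c : ι → F := fun j => algebraMap K F (a j) * x ^ ((d j₁ : ℤ) - d j)
  have hcmem : ∀ j, c j ∈ K⟮x⟯ := fun j =>
    mul_mem (IntermediateField.algebraMap_mem _ _) (zpow_mem (mem_adjoin_simple_self K x) _)
  let g' : F := ∑ j, c j * b j
  have hgg' : g = x ^ (M - d j₁) * g' := by
    rw [hg, Finset.mul_sum]
    refine Finset.sum_congr rfl fun j _ => ?_
    simp only [c]
    have : x ^ (M - d j) = x ^ (M - d j₁) * x ^ ((d j₁ : ℤ) - d j) := by
      rw [← zpow_add₀ hx0]
      congr 1
      ring
    rw [this]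
    ring
  have hdeg' : DegLE K x ((d j₁ : ℤ) - 1) g' := by
    rw [hgg', DegLE.zpow_mul_iff hx0] at hdeg
    have : M - 1 - (M - d j₁) = (d j₁ : ℤ) - 1 := by ring
    rwa [this] at hdeg
  have hreg' : FinReg K x g' := by
    refine FinReg.sum _ _ fun j _ => ?_
    by_cases hj : a j = 0
    · simp only [c, hj, map_zero, zero_mul]
      exact FinReg.zero
    · have h2 : d j ≤ d j₁ := hmax j (by simp [hj])
      have h3 : ((d j₁ : ℤ) - d j) = ((d j₁ - d j : ℕ) : ℤ) := by omega
      simp only [c]
      rw [h3, zpow_natCast]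
      exact ((FinReg.algebraMap _).mul (FinReg.self.pow _)).mul (h.reg j)
  have hrepr : ((b.repr g' j₁ : K⟮x⟯) : F) = c j₁ := repr_of_eq_sum b c hcmem g' rfl j₁
  have hc1 : c j₁ ≠ 0 := by
    simp only [c, sub_self, zpow_zero, mul_one]
    rwa [Ne, map_eq_zero]
  have hreprne : b.repr g' j₁ ≠ 0 := by
    intro h0
    apply hc1
    rw [← hrepr, h0]
    rfl
  by_cases hd0 : d j₁ = 0
  · have hg'0 : g' = 0 := by
      apply eq_zero_of_finReg_of_degLE_neg hpf hx (k := -1) (by norm_num) hreg'
      rw [hd0] at hdeg'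
      simpa using hdeg'
    apply hreprne
    rw [hg'0, map_zero]
    rfl
  · have hk : DegLE K x ((d j₁ - 1 : ℕ) : ℤ) g' := by
      have : ((d j₁ - 1 : ℕ) : ℤ) = (d j₁ : ℤ) - 1 := by omega
      rwa [this]
    have := IsReducedBasis.le_of_repr_ne_zero h hreg' hk hreprne
    omega

/-- (a) the degree at infinity is computed coordinatewise -/
theorem IsReducedBasis.repr_degLE (hpf : PF0 K F) (hx : IsFF1 K F x) (h : IsReducedBasis K x b d) {w : F}
    (hw : FinReg K x w) {m : ℤ} (hm : DegLE K x m w) (i : ι) :
    DegLE K x (m - d i) ((b.repr w i : K⟮x⟯) : F) := by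
  classical
  choose p hp using fun j => IsReducedBasis.repr_poly hpf hx h hw j
  by_contra hcon
  rw [hp, degLE_aeval_iff hpf hx] at hcon
  push Not at hcon
  obtain ⟨hpi, hdi⟩ := hcon
  have hJ : (Finset.univ.filter fun j => p j ≠ 0).Nonempty := ⟨i, by simp [hpi]⟩
  obtain ⟨j₀, hj₀, hmax⟩ := Finset.exists_max_image _ (fun j => (p j).natDegree + d j) hJ
  have hj₀' : p j₀ ≠ 0 := (Finset.mem_filter.mp hj₀).2
  set M : ℕ := (p j₀).natDegree + d j₀ with hM
  have hmax' : ∀ j, p j ≠ 0 → (p j).natDegree + d j ≤ M := fun j hj => hmax j (by simp [hj])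
  have hmM : m < M := by
    have := hmax' i hpi
    have h2 : ((p i).natDegree : ℤ) + d i ≤ M := by exact_mod_cast this
    omega
  let a : ι → K := fun j =>
    if p j ≠ 0 ∧ (p j).natDegree + d j = M then (p j).leadingCoeff else 0
  have ha0 : a j₀ ≠ 0 := by
    simp only [a]
    rw [if_pos ⟨hj₀', rfl⟩]
    exact leadingCoeff_ne_zero.mpr hj₀'
  set g := ∑ j, (algebraMap K F (a j) * x ^ ((M : ℤ) - d j)) * b j with hg
  have hwg : DegLE K x ((M : ℤ) - 1) (w - g) := by
    have hsub : w - g = ∑ j, (Polynomial.aeval x (p j)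
        - algebraMap K F (a j) * x ^ ((M : ℤ) - d j)) * b j := by
      conv_lhs => rw [sum_repr_mul b w]
      rw [hg, ← Finset.sum_sub_distrib]
      refine Finset.sum_congr rfl fun j _ => ?_
      rw [hp j]
      ring
    rw [hsub]
    refine DegLE.sum _ _ fun j _ => ?_
    by_cases hj : p j ≠ 0 ∧ (p j).natDegree + d j = M
    · have haj : a j = (p j).leadingCoeff := by simp only [a]; rw [if_pos hj]
      have hexp : ((M : ℤ) - d j) = ((p j).natDegree : ℤ) := by
        have := hj.2
        omega
      have herase : Polynomial.aeval x (p j) - algebraMap K F (a j) * x ^ ((M : ℤ) - d j)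
          = Polynomial.aeval x (p j).eraseLead := by
        have hdec : Polynomial.aeval x (p j) = Polynomial.aeval x (p j).eraseLead
            + algebraMap K F (p j).leadingCoeff * x ^ (p j).natDegree := by
          have := congrArg (Polynomial.aeval x) (Polynomial.eraseLead_add_C_mul_X_pow (p j))
          rw [map_add, map_mul, aeval_C, map_pow, aeval_X] at this
          exact this.symm
        rw [haj, hexp, zpow_natCast, hdec]
        ring
      rw [herase]
      rcases Polynomial.eraseLead_natDegree_lt_or_eraseLead_eq_zero (p j) with hlt | h0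
      · have h1 := (DegLE.aeval (K := K) (x := x) (p j).eraseLead).mul (h.deg j)
        refine h1.mono ?_
        have : ((p j).eraseLead.natDegree : ℤ) + 1 ≤ (p j).natDegree := by exact_mod_cast hlt
        omega
      · rw [h0, map_zero, zero_mul]
        exact DegLE.zero
    · have haj : a j = 0 := by simp only [a]; rw [if_neg hj]
      rw [haj, map_zero, zero_mul, sub_zero]
      by_cases hpj : p j = 0
      · rw [hpj, map_zero, zero_mul]
        exact DegLE.zero
      · have h1 := (DegLE.aeval (K := K) (x := x) (p j)).mul (h.deg j)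
        refine h1.mono ?_
        have h2 := hmax' j hpj
        have h3 : (p j).natDegree + d j ≠ M := fun h3 => hj ⟨hpj, h3⟩
        have h4 : (p j).natDegree + d j + 1 ≤ M := by omega
        have h5 : ((p j).natDegree : ℤ) + d j + 1 ≤ M := by exact_mod_cast h4
        omega
  have hgdeg : DegLE K x ((M : ℤ) - 1) g := by
    have h1 : DegLE K x ((M : ℤ) - 1) w := hm.mono (by omega)
    have h2 := h1.sub hwg
    rwa [sub_sub_cancel] at h2
  exact IsReducedBasis.not_degLE_leading hpf hx h a ⟨j₀, ha0⟩ M hgdeg

/-- converse of (a): degree bounds on the coordinates give a degree bound -/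
theorem IsGoodBasis.degLE_of_repr (h : IsGoodBasis K x b d) {w : F} {m : ℤ}
    (hrepr : ∀ i, DegLE K x (m - d i) ((b.repr w i : K⟮x⟯) : F)) : DegLE K x m w := by
  rw [sum_repr_mul b w]
  refine DegLE.sum _ _ fun j _ => ?_
  have := (hrepr j).mul (h.deg j)
  rwa [sub_add_cancel] at this

/-- converse of (b): polynomial coordinates give a finitely regular element -/
theorem IsGoodBasis.finReg_of_repr (h : IsGoodBasis K x b d) {w : F}
    (hrepr : ∀ i, FinReg K x ((b.repr w i : K⟮x⟯) : F)) : FinReg K x w := by
  rw [sum_repr_mul b w]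
  exact FinReg.sum _ _ fun j _ => (hrepr j).mul (h.reg j)

end Reduced

end Fermat.Agent.Lib.FFs
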