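import Fermat.Agent.Lib.FFs.Pole

/-!
# Function fields in any characteristic, part 8: Riemann's inequality

For a separating element `x` and a reduced basis `(b, d)` of `F/K(x)`:
`ℓ(E) ≥ deg E + n - Σ d` for every divisor `E`.
-/

set_option autoImplicit false
set_option linter.unusedSectionVars false
set_option linter.unusedVariables false
set_option linter.style.haveILetI false
set_option linter.deprecated false

open AlgebraicCurve IntermediateField Polynomial Module
open Fermat.Agent.Lib.FF

namespace Fermat.Agent.Lib.FFs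

variable {K F : Type*} [Field K] [Field F] [Algebra K F]
variable {x : F}

theorem PF0.divOf_mul (hpf : PF0 K F) {f g : F} (hf : f ≠ 0) (hg : g ≠ 0) :
    hpf.divOf (f * g) = hpf.divOf f + hpf.divOf g := by
  ext v
  rw [Finsupp.add_apply, hpf.divOf_apply, hpf.divOf_apply, hpf.divOf_apply, v.ord_mul hf hg]

theorem PF0.divOf_algebraMap (hpf : PF0 K F) (c : K) : hpf.divOf (algebraMap K F c) = 0 := by
  ext v
  rw [hpf.divOf_apply, ord_algebraMap]
  rfl

section Sep

variable [IsAlgClosed K]

/-- the poles of a separating element: `deg (x)_∞ = [F : K(x)]` -/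
theorem degree_poleDiv_of_isFF1s (hpf : PF0 K F) (hx : IsFF1s K F x) :
    Divisor.degree (hpf.poleDiv x) = (Module.finrank K⟮x⟯ F : ℤ) := by
  classical
  have hpfs := pfs_of_isFF1s hx
  have heq : hpf.pol x = hpfs.pol hx := by
    ext v
    rw [hpf.mem_pol, hpfs.mem_pol hx]
  rw [hpf.degree_poleDiv, heq, Finset.sum_neg_distrib, hpfs.sum_pol hx, neg_neg]

/-- `deg div(x - a) = 0` for a separating element `x` -/
theorem degree_divOf_sub_algebraMap (hpf : PF0 K F) (hx : IsFF1s K F x) (a : K) :
    Divisor.degree (hpf.divOf (x - algebraMap K F a)) = 0 := by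
  classical
  have hpfs := pfs_of_isFF1s hx
  have hsupp : (hpf.divOf (x - algebraMap K F a)).support ⊆ hpfs.fib hx a ∪ hpfs.pol hx := by
    intro v hv
    rw [Finsupp.mem_support_iff, hpf.divOf_apply] at hv
    rw [Finset.mem_union, hpfs.mem_fib hx, hpfs.mem_pol hx]
    rcases lt_or_gt_of_ne hv with h | h
    · right
      by_contra hneg
      push Not at hneg
      have := (FinReg.self.sub (FinReg.algebraMap a) : FinReg K x (x - algebraMap K F a)) v hneg
      omega
    · exact Or.inl h
  have hdisj : Disjoint (hpfs.fib hx a) (hpfs.pol hx) := by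
    rw [Finset.disjoint_left]
    intro v h1 h2
    have h1' := (hpfs.mem_fib hx).mp h1
    have h2' := (hpfs.mem_pol hx).mp h2
    rw [ord_sub_algebraMap_of_neg v h2' a] at h1'
    omega
  rw [degree_eq_sum_of_res hpf.res _ _ hsupp, Finset.sum_union hdisj]
  have h1 : ∑ v ∈ hpfs.fib hx a, hpf.divOf (x - algebraMap K F a) v
      = (Module.finrank K⟮x⟯ F : ℤ) := by
    rw [← hpfs.sum_fib hx a]
    exact Finset.sum_congr rfl fun v _ => hpf.divOf_apply _ v
  have h2 : ∑ v ∈ hpfs.pol hx, hpf.divOf (x - algebraMap K F a) v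
      = -(Module.finrank K⟮x⟯ F : ℤ) := by
    rw [← hpfs.sum_pol hx]
    refine Finset.sum_congr rfl fun v hv => ?_
    rw [hpf.divOf_apply, ord_sub_algebraMap_of_neg v ((hpfs.mem_pol hx).mp hv) a]
  rw [h1, h2, add_neg_cancel]

/-- `deg div(q(x)) = 0` for a separating element `x` -/
theorem degree_divOf_aeval (hpf : PF0 K F) (hx : IsFF1s K F x) (q : K[X]) :
    Divisor.degree (hpf.divOf (Polynomial.aeval x q)) = 0 := by
  have key : ∀ n : ℕ, ∀ q : K[X], q.natDegree ≤ n →
      Divisor.degree (hpf.divOf (Polynomial.aeval x q)) = 0 := by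
    intro n
    induction n with
    | zero =>
      intro q hdeg
      have hqC : q = C (q.coeff 0) := Polynomial.eq_C_of_natDegree_le_zero hdeg
      rw [hqC, aeval_C, hpf.divOf_algebraMap, map_zero]
    | succ n ih =>
      intro q hdeg
      by_cases hdeg' : q.natDegree ≤ n
      · exact ih q hdeg'
      have hqdeg : q.natDegree = n + 1 := by omega
      have hq0 : q ≠ 0 := by
        rintro rfl
        simp at hqdeg
      have hdeg0 : q.degree ≠ 0 := by
        rw [Polynomial.degree_eq_natDegree hq0, hqdeg]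
        exact_mod_cast (Nat.succ_ne_zero n)
      obtain ⟨a, ha⟩ := IsAlgClosed.exists_root q hdeg0
      obtain ⟨q₁, hq₁⟩ := Polynomial.dvd_iff_isRoot.mpr (show q.IsRoot a from ha)
      have hq₁0 : q₁ ≠ 0 := by
        rintro rfl
        rw [mul_zero] at hq₁
        exact hq0 hq₁
      have hdeg₁ : q₁.natDegree ≤ n := by
        have := congrArg Polynomial.natDegree hq₁
        rw [Polynomial.natDegree_mul (X_sub_C_ne_zero a) hq₁0, natDegree_X_sub_C] at this
        omega
      have hxa : x - algebraMap K F a ≠ 0 := by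
        have := aeval_ne_zero_of_transcendental hx.transcendental _ (X_sub_C_ne_zero a)
        rwa [map_sub, aeval_X, aeval_C] at this
      rw [hq₁, map_mul, map_sub, aeval_X, aeval_C,
        hpf.divOf_mul hxa (aeval_ne_zero_of_transcendental hx.transcendental q₁ hq₁0), map_add,
        degree_divOf_sub_algebraMap hpf hx a, ih q₁ hdeg₁, add_zero]
  exact key q.natDegree q le_rfl

/-- a polynomial in `x` vanishing to prescribed orders at the finite places -/
theorem exists_poly_ord_ge (hpf : PF0 K F) (hx : IsFF1 K F x) (W : Divisor K F) :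
    ∃ q : K[X], q ≠ 0 ∧ ∀ v : Place K F, 0 ≤ v.ord x → W v ≤ v.ord (Polynomial.aeval x q) := by
  classical
  let fac : Place K F → K[X] := fun v =>
    if h : 0 ≤ v.ord x then
      (X - C (exists_ord_sub_pos hx.transcendental v (hpf.res v) h).choose) ^ (W v).toNat
    else 1
  have hfac0 : ∀ v, fac v ≠ 0 := by
    intro v
    simp only [fac]
    split_ifs
    · exact pow_ne_zero _ (X_sub_C_ne_zero _)
    · exact one_ne_zero
  have hq0 : (∏ v ∈ W.support, fac v) ≠ 0 := Finset.prod_ne_zero_iff.mpr fun v _ => hfac0 v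
  refine ⟨∏ v ∈ W.support, fac v, hq0, ?_⟩
  intro w hw
  set q := ∏ v ∈ W.support, fac v with hq
  have hqreg : 0 ≤ w.ord (Polynomial.aeval x q) := FinReg.aeval q w hw
  by_cases hWw : W w ≤ 0
  · exact hWw.trans hqreg
  push Not at hWw
  have hmem : w ∈ W.support := by
    rw [Finsupp.mem_support_iff]; omega
  obtain ⟨r, hr⟩ := Finset.dvd_prod_of_mem fac hmem
  have hr0 : r ≠ 0 := by
    rintro rfl
    rw [mul_zero] at hr
    exact hq0 hr
  have hqr : Polynomial.aeval x q = Polynomial.aeval x (fac w) * Polynomial.aeval x r := by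
    rw [hq, hr, map_mul]
  have hfw : fac w = (X - C (exists_ord_sub_pos hx.transcendental w (hpf.res w) hw).choose) ^
      (W w).toNat := by
    simp only [fac, dif_pos hw]
  have ha := (exists_ord_sub_pos hx.transcendental w (hpf.res w) hw).choose_spec
  set a := (exists_ord_sub_pos hx.transcendental w (hpf.res w) hw).choose with hadef
  have h1 : w.ord (Polynomial.aeval x (fac w)) = ((W w).toNat : ℤ) *
      w.ord (x - algebraMap K F a) := by
    rw [hfw, map_pow, map_sub, aeval_X, aeval_C, ← zpow_natCast, w.ord_zpow]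
  have h2 : 0 ≤ w.ord (Polynomial.aeval x r) := FinReg.aeval r w hw
  have h3 : Polynomial.aeval x (fac w) ≠ 0 :=
    aeval_ne_zero_of_transcendental hx.transcendental _ (hfac0 w)
  have h4 : Polynomial.aeval x r ≠ 0 :=
    aeval_ne_zero_of_transcendental hx.transcendental _ hr0
  rw [hqr, w.ord_mul h3 h4, h1]
  have h5 : W w ≤ ((W w).toNat : ℤ) := Int.self_le_toNat _
  have h6 : (0 : ℤ) ≤ ((W w).toNat : ℤ) := Int.natCast_nonneg _
  have h7 : ((W w).toNat : ℤ) * 1 ≤ ((W w).toNat : ℤ) *
      w.ord (x - algebraMap K F a) := mul_le_mul_of_nonneg_left (by omega) h6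
  linarith


/-- **Riemann's inequality**, in terms of a reduced basis for a separating element -/
theorem riemann_aux (hpf : PF0 K F) (hx : IsFF1s K F x) {ι : Type*} [Fintype ι]
    {b : Basis ι K⟮x⟯ F} {d : ι → ℕ} (h : IsReducedBasis K x b d) (E : Divisor K F) :
    Divisor.degree E + (Module.finrank K⟮x⟯ F : ℤ) - ((∑ i, d i : ℕ) : ℤ)
      ≤ (Module.finrank K (riemannRochSpace E) : ℤ) := by
  classical
  obtain ⟨P₀, -⟩ := exists_pole hpf hx.toFF1
  obtain ⟨q, hq0, hq⟩ := exists_poly_ord_ge hpf hx.toFF1 E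
  have hq0' := aeval_ne_zero_of_transcendental hx.transcendental q hq0
  set M : ℕ := ∑ i, d i with hM
  set N : ℕ := q.natDegree with hN
  set B : ℕ := ∑ v ∈ E.support, (E v).toNat with hB
  have hEB : ∀ v, E v ≤ (B : ℤ) := by
    intro v
    by_cases hv : v ∈ E.support
    · have h1 : (E v).toNat ≤ B :=
        Finset.single_le_sum (f := fun w : Place K F => (E w).toNat)
          (fun _ _ => Nat.zero_le _) hv
      have h2 : E v ≤ ((E v).toNat : ℤ) := Int.self_le_toNat _
      have h3 : ((E v).toNat : ℤ) ≤ (B : ℤ) := by exact_mod_cast h1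
      omega
    · rw [Finsupp.notMem_support_iff] at hv
      rw [hv]
      exact Int.natCast_nonneg _
  set P := hpf.poleDiv x with hP
  set m : ℕ := M + N + B with hm
  have hle : E ≤ (m : ℤ) • P + hpf.divOf (Polynomial.aeval x q) := by
    rw [Finsupp.le_def]
    intro v
    rw [Finsupp.add_apply, Finsupp.smul_apply, smul_eq_mul, hpf.divOf_apply]
    by_cases hv : 0 ≤ v.ord x
    · rw [hP, hpf.poleDiv_of_nonneg hv, mul_zero, zero_add]
      exact hq v hv
    · push Not at hv
      rw [hP, hpf.poleDiv_of_neg hv, ord_aeval_of_neg hx.transcendental v hv q hq0, ← hN, hm]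
      have := hEB v
      push_cast
      have hMN : (0 : ℤ) ≤ (M : ℤ) + B := by positivity
      nlinarith
  have h1 := finrank_rrSpace_sub_le hpf P₀ hle
  rw [finrank_rrSpace_add_divOf hpf hq0', hP,
    finrank_rrSpace_smul_poleDiv hpf hx.toFF1 h m (by omega), map_add, map_zsmul,
    degree_poleDiv_of_isFF1s hpf hx, degree_divOf_aeval hpf hx, smul_eq_mul] at h1
  push_cast at h1 ⊢
  nlinarith

end Sep

end Fermat.Agent.Lib.FFs
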