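import Fermat.Agent.Lib.FunctionField.PlaceFactsMain

/-!
# Function fields in any characteristic, part 1: separating elements

`IsFF1s K F x`: `x` is transcendental over `K`, and `F` is finite and separable over `K(x)`.
For such `x` the integral closure of `K[x]` in `F` is a Dedekind domain, finite over `K[x]`,
and all the facts about the fibres of `x` hold (characteristic free port of `Fibre.lean`).
-/

set_option autoImplicit false
set_option linter.style.haveILetI false
set_option linter.unusedSectionVars false
set_option linter.deprecated false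

open AlgebraicCurve WithZero IsDedekindDomain IntermediateField
open scoped IntermediateField.algebraAdjoinAdjoin
open Fermat.Agent.Lib.FF

namespace Fermat.Agent.Lib.FFs

variable {K F : Type*} [Field K] [Field F] [Algebra K F]

/-- `x` is a separating transcendental element of the function field `F/K`. -/
structure IsFF1s (K F : Type*) [Field K] [Field F] [Algebra K F] (x : F) : Prop where
  transcendental : Transcendental K x
  finite : FiniteDimensional K⟮x⟯ F
  separable : Algebra.IsSeparable K⟮x⟯ F

theorem IsFF1s.of_adjoin_eq {x y : F} (hx : IsFF1s K F x) (hy : Transcendental K y)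
    (h : K⟮y⟯ = K⟮x⟯) : IsFF1s K F y := by
  refine ⟨hy, ?_, ?_⟩
  · rw [h]; exact hx.finite
  · rw [h]; exact hx.separable

theorem IsFF1s.inv {x : F} (hx : IsFF1s K F x) : IsFF1s K F x⁻¹ :=
  hx.of_adjoin_eq (transcendental_inv hx.transcendental) (adjoin_inv_eq x)

theorem IsFF1s.sub {x : F} (hx : IsFF1s K F x) (a : K) : IsFF1s K F (x - algebraMap K F a) :=
  hx.of_adjoin_eq (transcendental_sub_algebraMap hx.transcendental a) (adjoin_sub_algebraMap x a)

section Concrete

variable (K) (y : F) [FiniteDimensional K⟮y⟯ F] [Algebra.IsSeparable K⟮y⟯ F]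

theorem isDedekindDomain_intClosure :
    IsDedekindDomain (integralClosure (Algebra.adjoin K {y}) F) :=
  haveI := isPrincipalIdealRing_adjoin K y
  integralClosure.isDedekindDomain (Algebra.adjoin K {y}) K⟮y⟯ F

theorem isFractionRing_intClosure :
    IsFractionRing (integralClosure (Algebra.adjoin K {y}) F) F :=
  integralClosure.isFractionRing_of_finite_extension K⟮y⟯ F

theorem finite_intClosure :
    Module.Finite (Algebra.adjoin K {y}) (integralClosure (Algebra.adjoin K {y}) F) :=
  haveI := isPrincipalIdealRing_adjoin K y
  IsIntegralClosure.finite (Algebra.adjoin K {y}) K⟮y⟯ F _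

theorem finiteType_intClosure :
    Algebra.FiniteType K (integralClosure (Algebra.adjoin K {y}) F) :=
  haveI := finiteType_adjoin K y
  haveI := finite_intClosure K y
  Algebra.FiniteType.trans (S := Algebra.adjoin K {y}) inferInstance inferInstance

end Concrete

section Main

variable [IsAlgClosed K]

/-- a separating element which is regular at the given place -/
theorem exists_isFF1s_ord_nonneg {x : F} (hx : IsFF1s K F x) (v : Place K F) :
    ∃ y : F, IsFF1s K F y ∧ 0 ≤ v.ord y := by
  by_cases h : 0 ≤ v.ord x
  · exact ⟨x, hx, h⟩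
  · refine ⟨x⁻¹, hx.inv, ?_⟩
    rw [v.ord_inv]
    omega

/-- A1a. Residue field of every place is `K` (K algebraically closed). -/
theorem exists_sub_mem_maximalIdeal {x : F} (hx : IsFF1s K F x) (v : Place K F)
    (u : F) (hu : u ∈ v.toValuationSubring) :
    ∃ a : K, u = algebraMap K F a ∨ 0 < v.ord (u - algebraMap K F a) := by
  obtain ⟨y, hy, hvy⟩ := exists_isFF1s_ord_nonneg hx v
  haveI := hy.finite
  haveI := hy.separable
  haveI := isPrincipalIdealRing_adjoin K y
  haveI := isDedekindDomain_intClosure K y
  haveI := isFractionRing_intClosure K y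
  haveI := finiteType_intClosure K y
  obtain ⟨P, rfl⟩ := exists_prime_of_place (K := K)
    (B := integralClosure (Algebra.adjoin K {y}) F) v (intClosure_le_of_ord_nonneg K y v hvy)
  have h1 := ord_nonneg_of_mem _ hu
  rw [placeOfPrime_ord] at h1
  obtain ⟨a, ha⟩ := exists_sub_pos_of_primeOrd_nonneg (K := K) P u (Or.inr h1)
  refine ⟨a, ?_⟩
  rw [placeOfPrime_ord]
  exact ha

theorem algebraMap_residueField_surjective {x : F} (hx : IsFF1s K F x) (v : Place K F) :
    Function.Surjective (algebraMap K v.ResidueField) := by
  intro r
  obtain ⟨a, rfl⟩ := IsLocalRing.residue_surjective r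
  obtain ⟨c, hc⟩ := exists_sub_mem_maximalIdeal hx v (a : F) a.2
  refine ⟨c, ?_⟩
  change IsLocalRing.residue _ (algebraMap K v.toValuationSubring c) = IsLocalRing.residue _ a
  symm
  rw [← sub_eq_zero, ← map_sub, IsLocalRing.residue_eq_zero_iff, mem_maximalIdeal_iff]
  have hcoe : ((a - algebraMap K v.toValuationSubring c : v.toValuationSubring) : F)
      = (a : F) - algebraMap K F c := rfl
  rw [hcoe]
  rcases hc with hc | hc
  · left
    rw [hc, sub_self]
  · right
    exact hc

/-- A1a'. `deg v = 1`. -/
theorem deg_eq_one {x : F} (hx : IsFF1s K F x) (v : Place K F) : v.deg = 1 :=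
  deg_eq_one_of_res v (algebraMap_residueField_surjective hx v)

/-- the places over `y = 0` are the places of the primes containing `y` -/
theorem setOf_ord_pos_eq_image {y : F} (hy : IsFF1s K F y) :
    haveI := hy.finite
    haveI := hy.separable
    haveI := isPrincipalIdealRing_adjoin K y
    haveI := isDedekindDomain_intClosure K y
    haveI := isFractionRing_intClosure K y
    {v : Place K F | 0 < v.ord y} = placeOfPrime (K := K) ''
      {P : HeightOneSpectrum (integralClosure (Algebra.adjoin K {y}) F) |
        algebraMap (Algebra.adjoin K {y}) (integralClosure (Algebra.adjoin K {y}) F)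
          (genAdjoin K y) ∈ P.asIdeal} := by
  haveI := hy.finite
  haveI := hy.separable
  haveI := isPrincipalIdealRing_adjoin K y
  haveI := isDedekindDomain_intClosure K y
  haveI := isFractionRing_intClosure K y
  have hy0 : y ≠ 0 := by
    intro h
    apply hy.transcendental
    rw [h]
    exact isAlgebraic_zero
  have hβ : algebraMap (integralClosure (Algebra.adjoin K {y}) F) F
      (algebraMap (Algebra.adjoin K {y}) (integralClosure (Algebra.adjoin K {y}) F)
        (genAdjoin K y)) = y := rfl
  have hβ0 : algebraMap (Algebra.adjoin K {y}) (integralClosure (Algebra.adjoin K {y}) F)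
        (genAdjoin K y) ≠ 0 := by
    intro h
    rw [h, map_zero] at hβ
    exact hy0 hβ.symm
  ext v
  constructor
  · intro hv
    obtain ⟨P, rfl⟩ := exists_prime_of_place (K := K)
      (B := integralClosure (Algebra.adjoin K {y}) F) v
      (intClosure_le_of_ord_nonneg K y v (le_of_lt hv))
    refine ⟨P, ?_, rfl⟩
    rw [Set.mem_setOf_eq, mem_asIdeal_iff_primeOrd (F := F)]
    right
    rw [hβ, ← placeOfPrime_ord (K := K)]
    exact hv
  · rintro ⟨P, hP, rfl⟩
    rw [Set.mem_setOf_eq, mem_asIdeal_iff_primeOrd (F := F), hβ] at hP
    rw [Set.mem_setOf_eq, placeOfPrime_ord]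
    exact hP.resolve_left hβ0

/-- A1c. The zero fibre of `y` is finite. -/
theorem finite_zeros {y : F} (hy : IsFF1s K F y) :
    {v : Place K F | 0 < v.ord y}.Finite := by
  haveI := hy.finite
  haveI := hy.separable
  haveI := isPrincipalIdealRing_adjoin K y
  haveI := isDedekindDomain_intClosure K y
  haveI := isFractionRing_intClosure K y
  rw [setOf_ord_pos_eq_image hy]
  apply Set.Finite.image
  apply finite_setOf_mem_asIdeal
  intro h
  have hβ : algebraMap (integralClosure (Algebra.adjoin K {y}) F) F
      (algebraMap (Algebra.adjoin K {y}) (integralClosure (Algebra.adjoin K {y}) F)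
        (genAdjoin K y)) = y := rfl
  rw [h, map_zero] at hβ
  apply hy.transcendental
  rw [← hβ]
  exact isAlgebraic_zero

/-- A1d. Fundamental equality on the zero fibre: `Σ_{v | y = 0} ord_v y = [F : K(y)]`. -/
theorem sum_ord_zeros {y : F} (hy : IsFF1s K F y) :
    ∑ v ∈ (finite_zeros hy).toFinset, v.ord y = (Module.finrank K⟮y⟯ F : ℤ) := by
  classical
  haveI := hy.finite
  haveI := hy.separable
  haveI := isPrincipalIdealRing_adjoin K y
  haveI := isDedekindDomain_intClosure K y
  haveI := isFractionRing_intClosure K y
  haveI := finiteType_intClosure K y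
  haveI := finite_intClosure K y
  haveI := isMaximal_span_genAdjoin K y hy.transcendental
  have hβ : algebraMap (integralClosure (Algebra.adjoin K {y}) F) F
      (algebraMap (Algebra.adjoin K {y}) (integralClosure (Algebra.adjoin K {y}) F)
        (genAdjoin K y)) = y := rfl
  have hβ0 : algebraMap (Algebra.adjoin K {y}) (integralClosure (Algebra.adjoin K {y}) F)
        (genAdjoin K y) ≠ 0 := by
    intro h
    rw [h, map_zero] at hβ
    apply hy.transcendental
    rw [← hβ]
    exact isAlgebraic_zero
  have hfin := finite_setOf_mem_asIdeal _ hβ0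
  have h := sum_primeOrd_eq_finrank (K := K) (F := F)
    (B := integralClosure (Algebra.adjoin K {y}) F) (A := Algebra.adjoin K {y}) K⟮y⟯
    (genAdjoin K y) (genAdjoin_ne_zero K y hy.transcendental) hfin.toFinset (by simp)
  rw [← h]
  have himg : (finite_zeros hy).toFinset = hfin.toFinset.image (placeOfPrime (K := K)) := by
    ext v
    rw [Set.Finite.mem_toFinset, setOf_ord_pos_eq_image hy, Finset.mem_image]
    simp only [Set.mem_image, Set.Finite.mem_toFinset]
  rw [himg, Finset.sum_image (fun _ _ _ _ h => placeOfPrime_injective h)]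
  refine Finset.sum_congr rfl fun P _ => ?_
  rw [placeOfPrime_ord]
  rfl

end Main

end Fermat.Agent.Lib.FFs
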