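import Fermat.Agent.Lib.FFs.PlaceFacts
import Fermat.Agent.Lib.FunctionField.TraceLocal
import Fermat.Agent.Lib.FunctionField.DWDual

/-!
# Function fields in any characteristic, part 10: integrality and regularity of the trace

Port of the characteristic free part of `TraceLocal.lean` to separating elements: elements which
are regular at all places where `y` is regular are integral over `K[y]`, and the trace of an
element with poles of order at most `e_Q - 1` over `y = a` is regular at `y = a`
(no tameness needed).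
-/

set_option autoImplicit false
set_option linter.unusedSectionVars false
set_option linter.unusedVariables false
set_option linter.style.haveILetI false
set_option linter.deprecated false

open AlgebraicCurve WithZero IsDedekindDomain IntermediateField
open scoped IntermediateField.algebraAdjoinAdjoin
open Fermat.Agent.Lib.FF

namespace Fermat.Agent.Lib.FFs

variable {K F : Type*} [Field K] [Field F] [Algebra K F]

section Concrete

variable [IsAlgClosed K] {y : F}

/-- an element integral over `K[y]` is regular at every place where `y` is regular -/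
theorem ord_nonneg_of_isIntegral {f : F} (hf : IsIntegral (Algebra.adjoin K {y}) f)
    (Q : Place K F) (hQ : 0 ≤ Q.ord y) : 0 ≤ Q.ord f :=
  ord_nonneg_of_mem Q (intClosure_le_of_ord_nonneg K y Q hQ ⟨f, hf⟩)

/-- R5c. an element which is regular at every place where `y` is regular is integral over
`K[y]` -/
theorem isIntegral_of_forall_ord_nonneg (hy : IsFF1s K F y) (f : F)
    (hf : ∀ Q : Place K F, 0 ≤ Q.ord y → 0 ≤ Q.ord f) :
    IsIntegral (Algebra.adjoin K {y}) f := by
  haveI := hy.finite
  haveI := hy.separable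
  haveI := isPrincipalIdealRing_adjoin K y
  haveI := isDedekindDomain_intClosure K y
  haveI := isFractionRing_intClosure K y
  by_cases hf0 : f = 0
  · rw [hf0]
    exact isIntegral_zero
  have h := HeightOneSpectrum.mem_integers_of_valuation_le_one
    (R := integralClosure (Algebra.adjoin K {y}) F) F f (by
      intro P
      rw [← primeOrd_nonneg_iff P hf0, ← placeOfPrime_ord (K := K)]
      apply hf
      rw [placeOfPrime_ord]
      exact primeOrd_algebraMap_nonneg P
        (⟨y, (isIntegral_algebraMap (R := Algebra.adjoin K {y}) (A := F)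
          (x := genAdjoin K y))⟩ : integralClosure (Algebra.adjoin K {y}) F))
  obtain ⟨b, rfl⟩ := h
  exact b.2

/-- an element of `K[y]` outside `(y)` is a unit at every place over `y = 0` -/
theorem ord_adjoin_of_notMem (r : Algebra.adjoin K {y})
    (hr : r ∉ Ideal.span {genAdjoin K y}) (Q : Place K F) (hQ : 0 < Q.ord y) :
    (r : F) ≠ 0 ∧ Q.ord (r : F) = 0 := by
  obtain ⟨c, hc⟩ := exists_sub_mem_span_genAdjoin K y r
  have hc0 : c ≠ 0 := by
    intro h
    rw [h, map_zero, sub_zero] at hc
    exact hr hc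
  rw [Ideal.mem_span_singleton] at hc
  obtain ⟨r', hr'⟩ := hc
  have hrF : (r : F) = algebraMap K F c + y * (r' : F) := by
    have h1 : r = algebraMap K _ c + genAdjoin K y * r' := by
      rw [← hr']
      ring
    have h2 := congrArg (Subtype.val) h1
    exact h2
  have hcF : algebraMap K F c ≠ 0 := by rwa [Ne, map_eq_zero]
  by_cases h0 : y * (r' : F) = 0
  · rw [hrF, h0, add_zero]
    exact ⟨hcF, ord_algebraMap Q c⟩
  have hy0 : y ≠ 0 := left_ne_zero_of_mul h0
  have hr0 : (r' : F) ≠ 0 := right_ne_zero_of_mul h0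
  have h1 : 0 ≤ Q.ord (r' : F) := ord_nonneg_of_mem Q (adjoin_le_of_ord_nonneg K y Q hQ.le r')
  have h2 : Q.ord (algebraMap K F c) < Q.ord (y * (r' : F)) := by
    rw [ord_algebraMap, Q.ord_mul hy0 hr0]
    omega
  have h3 := ord_add_of_lt Q h2 hcF
  rw [← hrF, ord_algebraMap] at h3
  refine ⟨?_, h3⟩
  intro h
  have h4 : algebraMap K F c = -(y * (r' : F)) := by
    rw [h] at hrF
    exact eq_neg_of_add_eq_zero_left hrF.symm
  rw [h4, ord_neg] at h2
  exact lt_irrefl _ h2

/-- clearing the denominators of `h` away from `y = 0` -/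
theorem exists_clear_denominator (hy : IsFF1s K F y) (h : F) :
    ∃ (u : Algebra.adjoin K {y}) (k : ℕ), u ∉ Ideal.span {genAdjoin K y} ∧
      IsIntegral (Algebra.adjoin K {y}) ((u : F) * y ^ k * h) := by
  haveI := isPrincipalIdealRing_adjoin K y
  have halg := hy.toFF1.isAlgebraic_adjoin
  obtain ⟨d, hd0, hd⟩ := (halg.isAlgebraic h).exists_integral_multiple
  have hπ : ¬ IsUnit (genAdjoin K y) := by
    intro hu
    have hmax := isMaximal_span_genAdjoin K y hy.transcendental
    exact hmax.ne_top (Ideal.span_singleton_eq_top.mpr hu)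
  obtain ⟨k, u, hu, hdu⟩ := WfDvdMonoid.max_power_factor' hd0 hπ
  refine ⟨u, k, fun hmem => hu (Ideal.mem_span_singleton.mp hmem), ?_⟩
  have : (u : F) * y ^ k * h = d • h := by
    rw [Algebra.smul_def, hdu]
    change (u : F) * y ^ k * h = ((genAdjoin K y ^ k * u : Algebra.adjoin K {y}) : F) * h
    push_cast
    change (u : F) * y ^ k * h = (y ^ k * (u : F)) * h
    ring
  rw [this]
  exact hd

/-- a prime of the integral closure containing `y` gives a place over `y = 0` -/
theorem placeOfPrime_ord_pos_of_le (hy : IsFF1s K F y)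
    (hD : IsDedekindDomain (integralClosure (Algebra.adjoin K {y}) F))
    (hFr : IsFractionRing (integralClosure (Algebra.adjoin K {y}) F) F)
    (P : HeightOneSpectrum (integralClosure (Algebra.adjoin K {y}) F))
    (hP : (Ideal.span {genAdjoin K y}).map
      (algebraMap (Algebra.adjoin K {y}) (integralClosure (Algebra.adjoin K {y}) F)) ≤ P.asIdeal) :
    0 < (placeOfPrime (K := K) P).ord y := by
  have hy0 : y ≠ 0 := by
    intro h
    apply hy.transcendental
    rw [h]
    exact isAlgebraic_zero
  have h1 : algebraMap (Algebra.adjoin K {y}) (integralClosure (Algebra.adjoin K {y}) F)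
      (genAdjoin K y) ∈ P.asIdeal :=
    hP (Ideal.mem_map_of_mem _ (Ideal.mem_span_singleton_self _))
  rw [mem_asIdeal_iff_primeOrd (F := F)] at h1
  rw [placeOfPrime_ord]
  rcases h1 with h1 | h1
  · exfalso
    have h2 := congrArg (algebraMap (integralClosure (Algebra.adjoin K {y}) F) F) h1
    rw [map_zero] at h2
    exact hy0 h2
  · exact h1

/-- R5a. If `h` has poles of order at most `e_Q - 1` at the places over `y = 0`, then its trace
to `K(y)` is regular at `y = 0`. -/
theorem trace_regular_at_zero (hy : IsFF1s K F y) (h : F)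
    (hh : ∀ Q : Place K F, 0 < Q.ord y → h = 0 ∨ 1 - Q.ord y ≤ Q.ord h) :
    ∀ Q : Place K F, 0 < Q.ord y → 0 ≤ Q.ord ((Algebra.trace K⟮y⟯ F h : K⟮y⟯) : F) := by
  haveI := hy.finite
  haveI := hy.separable
  haveI := isPrincipalIdealRing_adjoin K y
  haveI hD := isDedekindDomain_intClosure K y
  haveI hFr := isFractionRing_intClosure K y
  haveI := finiteType_intClosure K y
  haveI := finite_intClosure K y
  haveI hmax := isMaximal_span_genAdjoin K y hy.transcendental
  intro Q hQ
  by_cases hh0 : h = 0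
  · rw [hh0, map_zero]
    simp
  have hy0 : y ≠ 0 := by
    intro h
    apply hy.transcendental
    rw [h]
    exact isAlgebraic_zero
  have hp0 : Ideal.span {genAdjoin K y} ≠ ⊥ := by
    simpa using genAdjoin_ne_zero K y hy.transcendental
  obtain ⟨u, k, hu, hint⟩ := exists_clear_denominator hy h
  have hu0 : (u : F) ≠ 0 := (ord_adjoin_of_notMem u hu Q hQ).1
  have hb_int : IsIntegral (Algebra.adjoin K {y}) (y * (u : F) * h) := by
    apply isIntegral_of_forall_ord_nonneg hy
    intro Q' hQ'
    rw [Q'.ord_mul (mul_ne_zero hy0 hu0) hh0, Q'.ord_mul hy0 hu0]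
    rcases hQ'.lt_or_eq with hpos | hzero
    · have h1 := (hh Q' hpos).resolve_left hh0
      have h2 := (ord_adjoin_of_notMem u hu Q' hpos).2
      omega
    · have h1 := ord_nonneg_of_isIntegral hint Q' hQ'
      rw [Q'.ord_mul (mul_ne_zero hu0 (pow_ne_zero k hy0)) hh0,
        Q'.ord_mul hu0 (pow_ne_zero k hy0), ← zpow_natCast, Q'.ord_zpow, ← hzero] at h1
      omega
  set b' : integralClosure (Algebra.adjoin K {y}) F := ⟨y * (u : F) * h, hb_int⟩ with hb'
  have hmem : Algebra.intTrace (Algebra.adjoin K {y}) (integralClosure (Algebra.adjoin K {y}) F) b'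
      ∈ Ideal.span {genAdjoin K y} := by
    apply intTrace_mem_of_forall_mem _ hp0
    intro P hP
    have hpos := placeOfPrime_ord_pos_of_le hy hD hFr P hP
    rw [mem_asIdeal_iff_primeOrd (F := F)]
    right
    rw [← placeOfPrime_ord (K := K)]
    change 0 < (placeOfPrime (K := K) P).ord (y * (u : F) * h)
    rw [Place.ord_mul _ (mul_ne_zero hy0 hu0) hh0, Place.ord_mul _ hy0 hu0]
    have h1 := (hh _ hpos).resolve_left hh0
    have h2 := (ord_adjoin_of_notMem u hu _ hpos).2
    omega
  obtain ⟨r, hr⟩ := Ideal.mem_span_singleton.mp hmem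
  have htr := Algebra.algebraMap_intTrace (A := Algebra.adjoin K {y}) (K := K⟮y⟯) (L := F)
    (B := integralClosure (Algebra.adjoin K {y}) F) b'
  have hlin : Algebra.trace K⟮y⟯ F (y * (u : F) * h)
      = (algebraMap (Algebra.adjoin K {y}) K⟮y⟯ (genAdjoin K y * u)) * Algebra.trace K⟮y⟯ F h := by
    have h1 : y * (u : F) * h
        = (algebraMap (Algebra.adjoin K {y}) K⟮y⟯ (genAdjoin K y * u)) • h := by
      rw [Algebra.smul_def, ← IsScalarTower.algebraMap_apply]
      rfl
    rw [h1, map_smul, smul_eq_mul]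
  have hb'F : algebraMap (integralClosure (Algebra.adjoin K {y}) F) F b' = y * (u : F) * h := rfl
  rw [hb'F, hlin, hr, map_mul, map_mul, mul_assoc] at htr
  have hπ0 : algebraMap (Algebra.adjoin K {y}) K⟮y⟯ (genAdjoin K y) ≠ 0 := by
    rw [Ne, map_eq_zero_iff _ (IsFractionRing.injective (Algebra.adjoin K {y}) K⟮y⟯)]
    exact genAdjoin_ne_zero K y hy.transcendental
  have hkey := mul_left_cancel₀ hπ0 htr
  -- `r = u * Tr h` in `K(y)`
  have hkeyF : (r : F) = (u : F) * ((Algebra.trace K⟮y⟯ F h : K⟮y⟯) : F) := by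
    have := congrArg (algebraMap K⟮y⟯ F) hkey
    rw [map_mul, ← IsScalarTower.algebraMap_apply, ← IsScalarTower.algebraMap_apply] at this
    exact this
  by_cases ht0 : ((Algebra.trace K⟮y⟯ F h : K⟮y⟯) : F) = 0
  · rw [ht0]
    simp
  have h3 : 0 ≤ Q.ord (r : F) := ord_nonneg_of_mem Q (adjoin_le_of_ord_nonneg K y Q hQ.le r)
  rw [hkeyF, Q.ord_mul hu0 ht0, (ord_adjoin_of_notMem u hu Q hQ).2] at h3
  omega

/-- R5d. an element of `K(y)` which is regular at every place where `y` is regular lies in
`K[y]` -/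
theorem mem_adjoin_of_forall_ord_nonneg (hy : IsFF1s K F y) (r : K⟮y⟯)
    (hr : ∀ Q : Place K F, 0 ≤ Q.ord y → 0 ≤ Q.ord (r : F)) :
    ∃ p : Algebra.adjoin K {y}, algebraMap (Algebra.adjoin K {y}) K⟮y⟯ p = r := by
  haveI := isPrincipalIdealRing_adjoin K y
  have h1 : IsIntegral (Algebra.adjoin K {y}) (r : F) := isIntegral_of_forall_ord_nonneg hy _ hr
  have h2 : IsIntegral (Algebra.adjoin K {y}) r := by
    have h3 : (r : F) = algebraMap K⟮y⟯ F r := rfl
    rw [h3] at h1
    exact (isIntegral_algebraMap_iff (algebraMap K⟮y⟯ F).injective).mp h1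
  exact (IsIntegrallyClosed.isIntegral_iff (R := Algebra.adjoin K {y}) (K := K⟮y⟯)).mp h2

/-- R5a at `y = a`. -/
theorem trace_regular_at (hy : IsFF1s K F y) (a : K) (h : F)
    (hh : ∀ Q : Place K F, 0 < Q.ord (y - algebraMap K F a) →
      h = 0 ∨ 1 - Q.ord (y - algebraMap K F a) ≤ Q.ord h) :
    ∀ Q : Place K F, 0 < Q.ord (y - algebraMap K F a) →
      0 ≤ Q.ord ((Algebra.trace K⟮y⟯ F h : K⟮y⟯) : F) := by
  intro Q hQ
  have hy' : IsFF1s K F (y - algebraMap K F a) := hy.sub a
  have := trace_regular_at_zero hy' h hh Q hQ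
  rwa [trX_congr (adjoin_sub_algebraMap y a)] at this

/-- R5a at `y = ∞`. -/
theorem trace_regular_at_infty (hy : IsFF1s K F y) (h : F)
    (hh : ∀ Q : Place K F, Q.ord y < 0 → h = 0 ∨ 1 + Q.ord y ≤ Q.ord h) :
    ∀ Q : Place K F, Q.ord y < 0 → 0 ≤ Q.ord ((Algebra.trace K⟮y⟯ F h : K⟮y⟯) : F) := by
  intro Q hQ
  have hy' : IsFF1s K F y⁻¹ := hy.inv
  have := trace_regular_at_zero hy' h (fun Q' hQ' => by
    rw [Q'.ord_inv] at hQ' ⊢
    have := hh Q' (by omega)
    rcases this with h0 | h1
    · exact Or.inl h0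
    · right
      omega) Q (by rw [Q.ord_inv]; omega)
  rwa [trX_congr (adjoin_inv_eq y)] at this

end Concrete

end Fermat.Agent.Lib.FFs
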